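import Mathlib

set_option autoImplicit false

/-!
# Modules satisfying the Cayley–Hamilton relations of a two-dimensional representation

Let `T` be a commutative ring in which `2` is a unit, `V` a free `T`-module of rank two with an
action `ρ` of a group `G` such that `T[G] → End_T V` is surjective, and let `X` be a `T[G]`-module
on which every `g` satisfies `g + det(ρ g) g⁻¹ = tr(ρ g)`.  Then the action on `X` factors through
`End_T V` and `V / Ann(X) V` embeds in a power of `X`.
-/

namespace Fermat.FlatMatch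

variable {T V X G : Type*} [CommRing T] [AddCommGroup V] [Module T V] [AddCommGroup X] [Module T X]
  [Group G]

/-- The span of the pairs `(ρ g, ξ g)`. -/
def graph (ρ : G →* Module.End T V) (ξ : G →* Module.End T X) :
    Submodule T (Module.End T V × Module.End T X) :=
  Submodule.span T (Set.range fun g => (ρ g, ξ g))

variable {ρ : G →* Module.End T V} {ξ : G →* Module.End T X}

theorem mem_graph (g : G) : (ρ g, ξ g) ∈ graph ρ ξ := Submodule.subset_span ⟨g, rfl⟩

theorem one_mem_graph : (1 : Module.End T V × Module.End T X) ∈ graph ρ ξ := by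
  have := mem_graph (ρ := ρ) (ξ := ξ) 1
  rwa [map_one, map_one] at this

theorem mul_mem_graph {s s' : Module.End T V × Module.End T X} (hs : s ∈ graph ρ ξ)
    (hs' : s' ∈ graph ρ ξ) : s * s' ∈ graph ρ ξ := by
  have : s * s' ∈ graph ρ ξ * graph ρ ξ := Submodule.mul_mem_mul hs hs'
  rw [graph, Submodule.span_mul_span] at this
  refine Submodule.span_mono ?_ this
  rintro _ ⟨_, ⟨g, rfl⟩, _, ⟨h, rfl⟩, rfl⟩
  exact ⟨g * h, by simp⟩

/-- the polarised Cayley–Hamilton identity on `X`. -/
theorem polarised (hrel : ∀ g, ξ g + LinearMap.det (ρ g) • ξ g⁻¹ = LinearMap.trace T V (ρ g) • 1)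
    {s s' : Module.End T V × Module.End T X} (hs : s ∈ graph ρ ξ) (hs' : s' ∈ graph ρ ξ) :
    s.2 * s'.2 + s'.2 * s.2 = LinearMap.trace T V s.1 • s'.2 + LinearMap.trace T V s'.1 • s.2 +
      (LinearMap.trace T V (s.1 * s'.1) - LinearMap.trace T V s.1 * LinearMap.trace T V s'.1) •
        (1 : Module.End T X) := by
  induction hs, hs' using Submodule.span_induction₂ with
  | mem_mem x y hx hy =>
    obtain ⟨g, rfl⟩ := hx
    obtain ⟨h, rfl⟩ := hy
    have h1 := hrel g
    have h2 := hrel h
    have h3 := hrel (g * h)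
    have h4 : LinearMap.det (ρ (g * h)) • ξ (g * h)⁻¹ =
        (LinearMap.det (ρ h) • ξ h⁻¹) * (LinearMap.det (ρ g) • ξ g⁻¹) := by
      rw [mul_inv_rev, map_mul ξ, map_mul ρ, map_mul LinearMap.det, smul_mul_smul_comm, mul_comm
        (LinearMap.det (ρ g))]
    have h1' : LinearMap.det (ρ g) • ξ g⁻¹ = LinearMap.trace T V (ρ g) • 1 - ξ g :=
      eq_sub_of_add_eq' h1
    have h2' : LinearMap.det (ρ h) • ξ h⁻¹ = LinearMap.trace T V (ρ h) • 1 - ξ h :=
      eq_sub_of_add_eq' h2
    rw [h4, h1', h2', map_mul, map_mul] at h3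
    simp only
    have h5 : ξ g * ξ h = LinearMap.trace T V (ρ g * ρ h) • (1 : Module.End T X) -
      (LinearMap.trace T V (ρ h) • 1 - ξ h) * (LinearMap.trace T V (ρ g) • 1 - ξ g) :=
      eq_sub_of_add_eq h3
    rw [h5]
    simp only [sub_mul, mul_sub, smul_mul_assoc, mul_smul_comm, one_mul, mul_one, smul_sub,
      smul_smul, sub_smul]
    rw [mul_comm (LinearMap.trace T V (ρ g))]
    abel
  | zero_left y hy => simp
  | zero_right x hx => simp
  | add_left x y z hx hy hz hx' hy' =>
    simp only [Prod.snd_add, Prod.fst_add, add_mul, mul_add, map_add, add_smul, sub_smul, smul_add]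
      at hx' hy' ⊢
    have := congrArg₂ (· + ·) hx' hy'
    refine Eq.trans ?_ (this.trans ?_) <;> abel
  | add_right x y z hx hy hz hx' hy' =>
    simp only [Prod.snd_add, Prod.fst_add, add_mul, mul_add, map_add, add_smul, sub_smul, smul_add]
      at hx' hy' ⊢
    have := congrArg₂ (· + ·) hx' hy'
    refine Eq.trans ?_ (this.trans ?_) <;> abel
  | smul_left r x y hx hy h =>
    have := congrArg (r • ·) h
    simp only [Prod.smul_snd, Prod.smul_fst, smul_mul_assoc, mul_smul_comm, map_smul, smul_eq_mul,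
      smul_add, smul_smul, sub_smul, smul_sub] at this ⊢
    rw [this]
    simp only [mul_comm, mul_left_comm]
  | smul_right r x y hx hy h =>
    have := congrArg (r • ·) h
    simp only [Prod.smul_snd, Prod.smul_fst, smul_mul_assoc, mul_smul_comm, map_smul, smul_eq_mul,
      smul_add, smul_smul, sub_smul, smul_sub] at this ⊢
    rw [this]
    simp only [mul_comm, mul_left_comm]

/-- Consequence of the polarised identity: commutators kill the kernel. -/
theorem commutator_mul_eq_zero (h2 : IsUnit (2 : T))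
    (hrel : ∀ g, ξ g + LinearMap.det (ρ g) • ξ g⁻¹ = LinearMap.trace T V (ρ g) • 1)
    {x : Module.End T X} (hx : (0, x) ∈ graph ρ ξ) {y z : Module.End T V × Module.End T X}
    (hy : y ∈ graph ρ ξ) (hz : z ∈ graph ρ ξ) : (y.2 * z.2 - z.2 * y.2) * x = 0 := by
  have key : ∀ {y : Module.End T V × Module.End T X}, y ∈ graph ρ ξ →
      x * y.2 = LinearMap.trace T V y.1 • x - y.2 * x := by
    intro y hy
    have := polarised hrel hx hy
    simp only [zero_mul, map_zero, zero_smul, zero_add, sub_self] at this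
    rw [add_zero] at this
    exact eq_sub_of_add_eq this
  have hyz := key (mul_mem_graph hy hz)
  have hzy := key (mul_mem_graph hz hy)
  simp only [Prod.snd_mul, Prod.fst_mul] at hyz hzy
  rw [LinearMap.trace_mul_comm] at hzy
  -- expand `x * (y * z)`
  have e1 : x * (y.2 * z.2) = LinearMap.trace T V y.1 • (x * z.2) - y.2 * (x * z.2) := by
    rw [← mul_assoc, key hy, sub_mul, smul_mul_assoc, mul_assoc]
  have e2 : x * (z.2 * y.2) = LinearMap.trace T V z.1 • (x * y.2) - z.2 * (x * y.2) := by
    rw [← mul_assoc, key hz, sub_mul, smul_mul_assoc, mul_assoc]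
  rw [key hz] at e1
  rw [key hy] at e2
  rw [e1] at hyz
  rw [e2] at hzy
  have h3 : (2 : T) • ((y.2 * z.2 - z.2 * y.2) * x) = 0 := by
    have h4 := congrArg₂ (· - ·) hyz hzy
    simp only [sub_sub_sub_cancel_left] at h4
    simp only [mul_sub, smul_sub, mul_smul_comm, smul_smul, sub_mul, ← mul_assoc] at h4 ⊢
    rw [mul_comm (LinearMap.trace T V z.1)] at h4
    rw [two_smul, two_smul]
    rw [← sub_eq_zero] at h4
    rw [← h4]
    abel
  exact (IsUnit.smul_eq_zero h2).mp h3

section Basis

variable (b : Module.Basis (Fin 2) T V)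

/-- matrix units. -/
noncomputable def unitEnd (i j : Fin 2) : Module.End T V :=
  b.constr T (fun k => if k = j then b i else 0)

theorem unitEnd_apply_basis (i j k : Fin 2) :
    unitEnd b i j (b k) = if k = j then b i else 0 := by
  rw [unitEnd, Module.Basis.constr_basis]

theorem unitEnd_mul (i j k l : Fin 2) :
    unitEnd b i j * unitEnd b k l = if j = k then unitEnd b i l else 0 := by
  refine b.ext fun m => ?_
  rw [Module.End.mul_apply, unitEnd_apply_basis]
  split_ifs with h1 h2 h2
  · subst h2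
    rw [unitEnd_apply_basis, unitEnd_apply_basis, if_pos rfl, if_pos h1]
  · rw [unitEnd_apply_basis, if_neg (Ne.symm h2)]; rfl
  · rw [map_zero, unitEnd_apply_basis, if_neg h1]
  · rw [map_zero]; rfl

theorem unitEnd_sum : unitEnd b 0 0 + unitEnd b 1 1 = 1 := by
  refine b.ext fun m => ?_
  rw [LinearMap.add_apply, unitEnd_apply_basis, unitEnd_apply_basis]
  fin_cases m <;> simp

/-- The second component is determined by the first one. -/
theorem eq_zero_of_mem_graph (b : Module.Basis (Fin 2) T V) (h2 : IsUnit (2 : T))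
    (hrel : ∀ g, ξ g + LinearMap.det (ρ g) • ξ g⁻¹ = LinearMap.trace T V (ρ g) • 1)
    (hspan : Submodule.span T (Set.range ρ) = ⊤) {x : Module.End T X}
    (hx : (0, x) ∈ graph ρ ξ) : x = 0 := by
  have hlift : ∀ A : Module.End T V, ∃ a : Module.End T X, (A, a) ∈ graph ρ ξ := by
    intro A
    have hA : A ∈ Submodule.span T (Set.range ρ) := hspan ▸ Submodule.mem_top
    induction hA using Submodule.span_induction with
    | mem x hx =>
      obtain ⟨g, rfl⟩ := hx
      exact ⟨ξ g, mem_graph g⟩
    | zero => exact ⟨0, Submodule.zero_mem _⟩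
    | add x y _ _ hx hy =>
      obtain ⟨a, ha⟩ := hx
      obtain ⟨c, hc⟩ := hy
      exact ⟨a + c, Submodule.add_mem _ ha hc⟩
    | smul r x _ hx =>
      obtain ⟨a, ha⟩ := hx
      exact ⟨r • a, Submodule.smul_mem _ r ha⟩
  obtain ⟨e12, h12⟩ := hlift (unitEnd b 0 1)
  obtain ⟨e21, h21⟩ := hlift (unitEnd b 1 0)
  obtain ⟨d, hd⟩ := hlift (unitEnd b 0 0 - unitEnd b 1 1)
  -- the element `k`
  have hk : ((0 : Module.End T V), 1 - d * (e12 * e21 - e21 * e12)) ∈ graph ρ ξ := by
    have h3 : (unitEnd b 0 1, e12) * (unitEnd b 1 0, e21) -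
        (unitEnd b 1 0, e21) * (unitEnd b 0 1, e12) ∈ graph ρ ξ :=
      Submodule.sub_mem _ (mul_mem_graph h12 h21) (mul_mem_graph h21 h12)
    have h4 := Submodule.sub_mem _ one_mem_graph (mul_mem_graph hd h3)
    convert h4 using 1
    refine Prod.ext ?_ rfl
    show (0 : Module.End T V) = 1 - (unitEnd b 0 0 - unitEnd b 1 1) *
      (unitEnd b 0 1 * unitEnd b 1 0 - unitEnd b 1 0 * unitEnd b 0 1)
    rw [unitEnd_mul, unitEnd_mul, if_pos rfl, if_pos rfl, sub_mul, mul_sub, mul_sub, unitEnd_mul,
      unitEnd_mul, unitEnd_mul, unitEnd_mul, ← unitEnd_sum b]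
    simp
  have hkill : ∀ {x : Module.End T X}, (0, x) ∈ graph ρ ξ →
      (1 - d * (e12 * e21 - e21 * e12)) * x = x := by
    intro x hx
    have := commutator_mul_eq_zero h2 hrel hx h12 h21
    simp only at this
    rw [sub_mul, one_mul, mul_assoc, this, mul_zero, sub_zero]
  set k := 1 - d * (e12 * e21 - e21 * e12) with hkdef
  have hanti : ∀ {x : Module.End T X}, (0, x) ∈ graph ρ ξ → x * k + k * x = 0 := by
    intro x hx
    have := polarised hrel hx hk
    simpa using this
  have hk0 : k = 0 := by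
    have h5 := hkill hk
    have h6 := hanti hk
    rw [h5, ← two_smul T k] at h6
    exact (IsUnit.smul_eq_zero h2).mp h6
  rw [← hkill hx, hk0, zero_mul]

/-- the graph is the graph of a linear map. -/
theorem exists_lift (hspan : Submodule.span T (Set.range ρ) = ⊤) (A : Module.End T V) :
    ∃ a : Module.End T X, (A, a) ∈ graph ρ ξ := by
  have hA : A ∈ Submodule.span T (Set.range ρ) := hspan ▸ Submodule.mem_top
  induction hA using Submodule.span_induction with
  | mem x hx =>
    obtain ⟨g, rfl⟩ := hx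
    exact ⟨ξ g, mem_graph g⟩
  | zero => exact ⟨0, Submodule.zero_mem _⟩
  | add x y _ _ hx hy =>
    obtain ⟨a, ha⟩ := hx
    obtain ⟨c, hc⟩ := hy
    exact ⟨a + c, Submodule.add_mem _ ha hc⟩
  | smul r x _ hx =>
    obtain ⟨a, ha⟩ := hx
    exact ⟨r • a, Submodule.smul_mem _ r ha⟩

/-- **Main theorem**: the action on `X` factors through `End V`. -/
theorem exists_algHom (b : Module.Basis (Fin 2) T V) (h2 : IsUnit (2 : T))
    (hrel : ∀ g, ξ g + LinearMap.det (ρ g) • ξ g⁻¹ = LinearMap.trace T V (ρ g) • 1)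
    (hspan : Submodule.span T (Set.range ρ) = ⊤) :
    ∃ Ψ : Module.End T V →ₐ[T] Module.End T X, ∀ g, Ψ (ρ g) = ξ g := by
  have huniq : ∀ {A : Module.End T V} {a a' : Module.End T X}, (A, a) ∈ graph ρ ξ →
      (A, a') ∈ graph ρ ξ → a = a' := by
    intro A a a' h h'
    have h3 := Submodule.sub_mem _ h h'
    rw [Prod.mk_sub_mk, sub_self] at h3
    exact sub_eq_zero.mp (eq_zero_of_mem_graph b h2 hrel hspan h3)
  choose f hf using exists_lift (ξ := ξ) hspan
  refine ⟨AlgHom.ofLinearMap
    { toFun := f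
      map_add' := fun A B => huniq (hf _) (Submodule.add_mem _ (hf A) (hf B))
      map_smul' := fun r A => huniq (hf _) (Submodule.smul_mem _ r (hf A)) }
    (huniq (hf _) one_mem_graph) (fun A B => huniq (hf _) (mul_mem_graph (hf A) (hf B))), ?_⟩
  intro g
  exact huniq (hf _) (mem_graph g)

/-- the endomorphism `b 0 ↦ v`, `b 1 ↦ 0`. -/
noncomputable def colEnd (b : Module.Basis (Fin 2) T V) : V →ₗ[T] Module.End T V where
  toFun v := b.constr T (fun k => if k = 0 then v else 0)
  map_add' v w := by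
    refine b.ext fun m => ?_
    rw [LinearMap.add_apply, Module.Basis.constr_basis, Module.Basis.constr_basis,
      Module.Basis.constr_basis]
    split_ifs <;> simp
  map_smul' r v := by
    refine b.ext fun m => ?_
    rw [RingHom.id_apply, LinearMap.smul_apply, Module.Basis.constr_basis,
      Module.Basis.constr_basis]
    split_ifs <;> simp

theorem colEnd_apply_basis (b : Module.Basis (Fin 2) T V) (v : V) (k : Fin 2) :
    colEnd b v (b k) = if k = 0 then v else 0 := by
  show b.constr T (fun k => if k = 0 then v else 0) (b k) = _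
  rw [Module.Basis.constr_basis]

theorem mul_colEnd (b : Module.Basis (Fin 2) T V) (A : Module.End T V) (v : V) :
    A * colEnd b v = colEnd b (A v) := by
  refine b.ext fun m => ?_
  rw [Module.End.mul_apply, colEnd_apply_basis, colEnd_apply_basis]
  split_ifs
  · rfl
  · exact map_zero A

theorem unitEnd_mul_colEnd (b : Module.Basis (Fin 2) T V) (v : V) (j : Fin 2) :
    unitEnd b 0 j * colEnd b v = b.repr v j • unitEnd b 0 0 := by
  refine b.ext fun m => ?_
  rw [Module.End.mul_apply, colEnd_apply_basis, LinearMap.smul_apply, unitEnd_apply_basis]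
  split_ifs with h
  · conv_lhs => rw [← b.sum_repr v]
    rw [map_sum, Finset.sum_eq_single j]
    · rw [map_smul, unitEnd_apply_basis, if_pos rfl]
    · intro k _ hk
      rw [map_smul, unitEnd_apply_basis, if_neg hk, smul_zero]
    · intro h; exact absurd (Finset.mem_univ j) h
  · rw [map_zero, smul_zero]

/-- If all `Ψ (colEnd v)` vanish then the coordinates of `v` annihilate `X`. -/
theorem repr_mem_annihilator (b : Module.Basis (Fin 2) T V)
    (Ψ : Module.End T V →ₐ[T] Module.End T X) {v : V} (hv : Ψ (colEnd b v) = 0) (j : Fin 2) :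
    b.repr v j ∈ Module.annihilator T X := by
  have h1 : b.repr v j • Ψ (unitEnd b 0 0) = 0 := by
    rw [← map_smul, ← unitEnd_mul_colEnd, map_mul, hv, mul_zero]
  have h2 : b.repr v j • Ψ (unitEnd b 1 1) = 0 := by
    have : unitEnd b 1 1 = unitEnd b 1 0 * unitEnd b 0 0 * unitEnd b 0 1 := by
      rw [unitEnd_mul, if_pos rfl, unitEnd_mul, if_pos rfl]
    rw [this, map_mul, map_mul, ← smul_mul_assoc, ← mul_smul_comm, h1, mul_zero, zero_mul]
  rw [Module.mem_annihilator]
  intro x
  have h3 : b.repr v j • (1 : Module.End T X) = 0 := by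
    rw [← map_one Ψ, ← unitEnd_sum b, map_add, smul_add, h1, h2, add_zero]
  exact LinearMap.congr_fun h3 x

/-- The family of maps `V → X` indexed by `X`. -/
noncomputable def embPi (b : Module.Basis (Fin 2) T V) (Ψ : Module.End T V →ₐ[T] Module.End T X) :
    V →ₗ[T] (X → X) :=
  LinearMap.pi fun w => (LinearMap.applyₗ w) ∘ₗ (Ψ.toLinearMap ∘ₗ colEnd b)

@[simp] theorem embPi_apply (b : Module.Basis (Fin 2) T V)
    (Ψ : Module.End T V →ₐ[T] Module.End T X) (v : V) (w : X) :
    embPi b Ψ v w = Ψ (colEnd b v) w := rfl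

theorem embPi_equivariant (b : Module.Basis (Fin 2) T V)
    (Ψ : Module.End T V →ₐ[T] Module.End T X) (hΨ : ∀ g, Ψ (ρ g) = ξ g) (g : G) (v : V) (w : X) :
    embPi b Ψ (ρ g v) w = ξ g (embPi b Ψ v w) := by
  rw [embPi_apply, ← mul_colEnd, map_mul, hΨ]
  rfl

theorem mem_smul_top_of_embPi_eq_zero (b : Module.Basis (Fin 2) T V)
    (Ψ : Module.End T V →ₐ[T] Module.End T X) {v : V} (hv : embPi b Ψ v = 0) :
    v ∈ Module.annihilator T X • (⊤ : Submodule T V) := by
  have h : Ψ (colEnd b v) = 0 := LinearMap.ext fun w => congrFun hv w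
  rw [← b.sum_repr v]
  exact Submodule.sum_mem _ fun j _ =>
    Submodule.smul_mem_smul (repr_mem_annihilator b Ψ h j) Submodule.mem_top

end Basis

end Fermat.FlatMatch
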