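import Fermat.Agent.BrauerNesbittGalois
import Fermat.Agent.FlatMatch.BLR
import Fermat.Prelude.Def_GaloisRep_Adic

set_option autoImplicit false

/-!
# Absolutely irreducible residual representation: the group ring surjects onto `End V`
-/

namespace Fermat.FlatMatch

open IsLocalRing
open scoped TensorProduct

variable {T : Type} [CommRing T] [IsLocalRing T]

theorem mem_smul_top_of_baseChange_eq_zero {V : Type} [AddCommGroup V] [Module T V]
    (b : Module.Basis (Fin 2) T V) (f : Module.End T V)
    (hf : f.baseChange (ResidueField T) = 0) :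
    f ∈ maximalIdeal T • (⊤ : Submodule T (Module.End T V)) := by
  have hcoord : ∀ i j, b.repr (f (b j)) i ∈ maximalIdeal T := by
    intro i j
    have h1 : (1 : ResidueField T) ⊗ₜ[T] f (b j) = 0 := by
      have := LinearMap.congr_fun hf ((1 : ResidueField T) ⊗ₜ[T] b j)
      rwa [LinearMap.baseChange_tmul] at this
    have h2 := congrArg (fun z => (b.baseChange (ResidueField T)).repr z i) h1
    simp only [Module.Basis.baseChange_repr_tmul, map_zero, Finsupp.coe_zero, Pi.zero_apply] at h2
    rw [Algebra.smul_def, mul_one, ResidueField.algebraMap_eq] at h2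
    exact (residue_eq_zero_iff _).mp h2
  have hf2 : f = ∑ j, ∑ i, b.repr (f (b j)) i • unitEnd b i j := by
    refine b.ext fun k => ?_
    rw [LinearMap.sum_apply]
    refine Eq.trans ?_ (Finset.sum_eq_single k ?_ ?_).symm
    · rw [LinearMap.sum_apply]
      refine (b.sum_repr (f (b k))).symm.trans (Finset.sum_congr rfl fun i _ => ?_)
      rw [LinearMap.smul_apply, unitEnd_apply_basis, if_pos rfl]
    · intro j _ hj
      rw [LinearMap.sum_apply]
      refine Finset.sum_eq_zero fun i _ => ?_
      rw [LinearMap.smul_apply, unitEnd_apply_basis, if_neg (Ne.symm hj), smul_zero]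
    · intro h; exact absurd (Finset.mem_univ _) h
  rw [hf2]
  exact Submodule.sum_mem _ fun j _ => Submodule.sum_mem _ fun i _ =>
    Submodule.smul_mem_smul (hcoord i j) Submodule.mem_top

theorem span_eq_top_of_baseChange {V : Type} [AddCommGroup V] [Module T V]
    (b : Module.Basis (Fin 2) T V) {G : Type} (ρ : G → Module.End T V)
    (h : Submodule.span (ResidueField T)
      (Set.range fun g => ((ρ g).baseChange (ResidueField T) :
        Module.End (ResidueField T) (ResidueField T ⊗[T] V))) = ⊤) :
    Submodule.span T (Set.range ρ) = ⊤ := by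
  have hlift : ∀ A : Module.End (ResidueField T) (ResidueField T ⊗[T] V),
      ∃ f ∈ Submodule.span T (Set.range ρ), f.baseChange (ResidueField T) = A := by
    intro A
    have hA : A ∈ Submodule.span (ResidueField T)
      (Set.range fun g => ((ρ g).baseChange (ResidueField T) :
        Module.End (ResidueField T) (ResidueField T ⊗[T] V))) := by rw [h]; trivial
    induction hA using Submodule.span_induction with
    | mem A hA =>
      obtain ⟨g, rfl⟩ := hA
      exact ⟨ρ g, Submodule.subset_span ⟨g, rfl⟩, rfl⟩
    | zero => exact ⟨0, Submodule.zero_mem _, LinearMap.baseChange_zero⟩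
    | add A B _ _ hA hB =>
      obtain ⟨f, hf, hf'⟩ := hA
      obtain ⟨g, hg, hg'⟩ := hB
      exact ⟨f + g, Submodule.add_mem _ hf hg, by rw [LinearMap.baseChange_add, hf', hg']⟩
    | smul c A _ hA =>
      obtain ⟨f, hf, hf'⟩ := hA
      obtain ⟨c, rfl⟩ := residue_surjective c
      refine ⟨c • f, Submodule.smul_mem _ c hf, ?_⟩
      rw [LinearMap.baseChange_smul, hf']
      exact (algebraMap_smul (ResidueField T) c A).symm
  have hle : (⊤ : Submodule T (Module.End T V)) ≤ Submodule.span T (Set.range ρ) ⊔
      maximalIdeal T • (⊤ : Submodule T (Module.End T V)) := by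
    intro f _
    obtain ⟨g, hg, hg'⟩ := hlift (f.baseChange (ResidueField T))
    have h1 : f - g ∈ maximalIdeal T • (⊤ : Submodule T (Module.End T V)) := by
      refine mem_smul_top_of_baseChange_eq_zero b _ ?_
      rw [LinearMap.baseChange_sub, hg']
      exact LinearMap.ext fun x => sub_self _
    rw [← add_sub_cancel g f]
    exact Submodule.add_mem_sup hg h1
  have : Module.Finite T V := Module.Finite.of_basis b
  have : Module.Free T V := Module.Free.of_basis b
  have hfg : (⊤ : Submodule T (Module.End T V)).FG := Module.Finite.fg_top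
  rw [eq_top_iff]
  exact Submodule.le_of_le_smul_of_le_jacobson_bot hfg
    (IsLocalRing.jacobson_eq_maximalIdeal ⊥ bot_ne_top).ge hle

/-- Burnside + Nakayama. -/
theorem span_eq_top_of_residual (ρ : GaloisRepAdic T) (h : ρ.residual.IsAbsolutelyIrreducible) :
    Submodule.span T (Set.range ρ.ρ) = ⊤ := by
  rw [Fermat.Agent.BN2.isAbsolutelyIrreducible_iff_span] at h
  exact span_eq_top_of_baseChange (Module.finBasisOfFinrankEq T ρ.V ρ.finrank_eq) _ h

end Fermat.FlatMatch
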