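import Mathlib

set_option autoImplicit false

/-!
# A Fitting ideal estimate

If `Y` is an `R`-module generated by `r` elements and `α ∈ A` kills `A ⊗ Y`, then `α ^ r` lies in
the ideal of `A` generated by the annihilator of `Y`.
-/

namespace Fermat.FlatMatch

open TensorProduct

variable {R A Y : Type*} [CommRing R] [CommRing A] [Algebra R A] [AddCommGroup Y] [Module R Y]

theorem det_mem_annihilator {r : ℕ} (y : Fin r → Y) (hy : Submodule.span R (Set.range y) = ⊤)
    (P : Matrix (Fin r) (Fin r) R) (hP : ∀ j, ∑ i, P j i • y i = 0) :
    P.det ∈ Module.annihilator R Y := by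
  have h1 : ∀ i, P.det • y i = 0 := by
    intro i
    have h2 : ∑ j, P.adjugate i j • (∑ k, P j k • y k) = P.det • y i := by
      simp only [Finset.smul_sum, smul_smul]
      rw [Finset.sum_comm]
      have h3 : ∀ k, ∑ j, (P.adjugate i j * P j k) • y k = (if i = k then P.det else 0) • y k := by
        intro k
        rw [← Finset.sum_smul]
        congr 1
        have := congrFun (congrFun (Matrix.adjugate_mul P) i) k
        rw [Matrix.mul_apply] at this
        rw [this, Matrix.smul_apply, Matrix.one_apply, smul_eq_mul, mul_ite, mul_one, mul_zero]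
      simp only [h3, ite_smul, zero_smul, Finset.sum_ite_eq, Finset.mem_univ, if_true]
    rw [← h2]
    refine Finset.sum_eq_zero fun j _ => ?_
    rw [hP, smul_zero]
  rw [Module.mem_annihilator]
  intro z
  have hz : z ∈ Submodule.span R (Set.range y) := hy ▸ Submodule.mem_top
  induction hz using Submodule.span_induction with
  | mem x hx => obtain ⟨i, rfl⟩ := hx; exact h1 i
  | zero => exact smul_zero _
  | add x y _ _ hx hy => rw [smul_add, hx, hy, add_zero]
  | smul a x _ hx => rw [smul_comm, hx, smul_zero]

/-- a multilinear form maps the span of `S` to an ideal if it maps `S` to that ideal. -/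
theorem multilinear_mem_of_span {r : ℕ} {M : Type*} [AddCommGroup M] [Module A M]
    (f : MultilinearMap A (fun _ : Fin r => M) A) (I : Ideal A) (S : Set M)
    (hf : ∀ v : Fin r → M, (∀ j, v j ∈ S) → f v ∈ I) (v : Fin r → M)
    (hv : ∀ j, v j ∈ Submodule.span A S) : f v ∈ I := by
  classical
  have h1 : ∀ j, ∃ (c : S →₀ A), Finsupp.linearCombination A (Subtype.val) c = v j := by
    intro j
    have := hv j
    rw [← Subtype.range_coe (s := S), Finsupp.mem_span_range_iff_exists_finsupp] at this
    obtain ⟨c, hc⟩ := this
    exact ⟨c, by rw [Finsupp.linearCombination_apply]; exact hc⟩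
  choose c hc using h1
  have h2 : v = fun j => ∑ s ∈ (c j).support, (c j s) • (s : M) := by
    funext j
    rw [← hc j, Finsupp.linearCombination_apply, Finsupp.sum]
  rw [h2, MultilinearMap.map_sum_finset]
  refine I.sum_mem fun t _ => ?_
  rw [MultilinearMap.map_smul_univ, smul_eq_mul]
  exact I.mul_mem_left _ (hf _ fun j => (t j).2)

theorem pow_mem_map_annihilator {r : ℕ} (y : Fin r → Y)
    (hy : Submodule.span R (Set.range y) = ⊤) (α : A) (hα : ∀ z : A ⊗[R] Y, α • z = 0) :
    α ^ r ∈ (Module.annihilator R Y).map (algebraMap R A) := by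
  classical
  set I := (Module.annihilator R Y).map (algebraMap R A) with hI
  let φ : (Fin r → R) →ₗ[R] Y := Fintype.linearCombination R y
  have hφ : Function.Surjective φ := by
    rw [← LinearMap.range_eq_top, Fintype.range_linearCombination, hy]
  let S : Set (Fin r → A) := {v | ∃ κ : Fin r → R, φ κ = 0 ∧ v = fun i => algebraMap R A (κ i)}
  -- key: `α e_j` in the span of `S`
  have hex : Function.Exact (LinearMap.ker φ).subtype φ := by
    rw [LinearMap.exact_iff, Submodule.range_subtype]
  have hex' : Function.Exact ((LinearMap.ker φ).subtype.lTensor A) (φ.lTensor A) :=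
    lTensor_exact A hex hφ
  let e : A ⊗[R] (Fin r → R) ≃ₗ[A] (Fin r → A) := TensorProduct.piScalarRight R A A (Fin r)
  have he : ∀ (a : A) (κ : Fin r → R), e (a ⊗ₜ κ) = fun i => a * algebraMap R A (κ i) := by
    intro a κ
    funext i
    simp only [e, TensorProduct.piScalarRight_apply, TensorProduct.piScalarRightHom_tmul]
    rw [Algebra.smul_def, mul_comm]
  have hspan : ∀ t : A ⊗[R] (Fin r → R), φ.lTensor A t = 0 → e t ∈ Submodule.span A S := by
    intro t ht
    obtain ⟨s, rfl⟩ := (hex' t).mp ht
    induction s using TensorProduct.induction_on with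
    | zero => simp
    | add x y hx hy =>
      rw [map_add, map_add]
      have hx' : (LinearMap.lTensor A φ) ((LinearMap.lTensor A (LinearMap.ker φ).subtype) x) = 0 :=
        (hex' _).mpr ⟨x, rfl⟩
      have hy' : (LinearMap.lTensor A φ) ((LinearMap.lTensor A (LinearMap.ker φ).subtype) y) = 0 :=
        (hex' _).mpr ⟨y, rfl⟩
      exact Submodule.add_mem _ (hx hx') (hy hy')
    | tmul a κ =>
      rw [LinearMap.lTensor_tmul, he]
      have : (fun i => a * algebraMap R A (((LinearMap.ker φ).subtype κ) i)) =
          a • (fun i => algebraMap R A (((LinearMap.ker φ).subtype κ) i)) := rfl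
      rw [this]
      exact Submodule.smul_mem _ _ (Submodule.subset_span ⟨_, κ.2, rfl⟩)
  have hej : ∀ j : Fin r, (fun i => if j = i then α else 0) ∈ Submodule.span A S := by
    intro j
    have h1 := hspan (α ⊗ₜ (fun i => if j = i then 1 else 0)) (by
      rw [LinearMap.lTensor_tmul]
      have := hα (1 ⊗ₜ φ (fun i => if j = i then 1 else 0))
      rwa [TensorProduct.smul_tmul', smul_eq_mul, mul_one] at this)
    rw [he] at h1
    convert h1 using 1
    funext i
    split_ifs <;> simp
  have hdet := multilinear_mem_of_span
    (Matrix.detRowAlternating (n := Fin r) (R := A)).toMultilinearMap I S ?_ _ hej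
  · have h3 : (Matrix.detRowAlternating (n := Fin r) (R := A)).toMultilinearMap
        (fun j i => if j = i then α else 0) = α ^ r := by
      show Matrix.det (fun j i : Fin r => if j = i then α else 0) = α ^ r
      have h4 : (fun j i : Fin r => if j = i then α else 0) = Matrix.diagonal (fun _ => α) := by
        funext j i
        rw [Matrix.diagonal_apply]
      rw [h4, Matrix.det_diagonal]
      simp
    rwa [h3] at hdet
  · intro v hv
    choose κ hκ hκv using hv
    have h5 : v = (Matrix.of κ).map (algebraMap R A) := by
      funext j i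
      rw [hκv j]
      rfl
    have h6 : (Matrix.detRowAlternating (n := Fin r) (R := A)).toMultilinearMap v =
        algebraMap R A (Matrix.of κ).det := by
      show Matrix.det v = _
      rw [h5, RingHom.map_det]
      rfl
    rw [h6]
    refine Ideal.mem_map_of_mem _ (det_mem_annihilator y hy _ fun j => ?_)
    have := hκ j
    rw [Fintype.linearCombination_apply] at this
    exact this

end Fermat.FlatMatch
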