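import Fermat.Agent.FlatMatch.Match
import Fermat.Agent.FlatMatch.Fitting

set_option autoImplicit false

/-!
# Matching with base changes of torsion modules
-/

namespace Fermat.FlatMatch

open IsLocalRing Fermat.FlatModel
open scoped TensorProduct

noncomputable section

section Gen

/-- `Y / pY` and `Y[p]` have the same cardinality for a finite abelian group `Y`. -/
theorem card_quotient_eq_card_ker {Y : Type} [AddCommGroup Y] [Finite Y] (f : Y →+ Y) :
    Nat.card (Y ⧸ f.range) = Nat.card f.ker := by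
  have h1 : Nat.card Y = Nat.card (Y ⧸ f.ker) * Nat.card f.ker :=
    AddSubgroup.card_eq_card_quotient_mul_card_addSubgroup _
  have h2 : Nat.card Y = Nat.card (Y ⧸ f.range) * Nat.card f.range :=
    AddSubgroup.card_eq_card_quotient_mul_card_addSubgroup _
  have h3 : Nat.card (Y ⧸ f.ker) = Nat.card f.range :=
    Nat.card_congr (QuotientAddGroup.quotientKerEquivRange f).toEquiv
  have h4 : 0 < Nat.card f.range := Nat.card_pos
  rw [h2, h3, mul_comm] at h1
  exact Nat.eq_of_mul_eq_mul_left h4 h1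

/-- A finite abelian group killed by a power of `p` is generated by `|Y[p]|` elements. -/
theorem exists_generators {Y : Type} [AddCommGroup Y] [Finite Y] (p m c : ℕ)
    (hp : ∀ y : Y, p ^ m • y = 0) (hc : Nat.card {y : Y // p • y = 0} ≤ c) :
    ∃ y : Fin c → Y, AddSubgroup.closure (Set.range y) = ⊤ := by
  classical
  let f : Y →+ Y := nsmulAddMonoidHom p
  have hker : Nat.card f.ker ≤ c := by
    refine le_trans (le_of_eq ?_) hc
    exact Nat.card_congr (Equiv.subtypeEquivRight fun y => Iff.rfl)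
  have hquot : Nat.card (Y ⧸ f.range) ≤ c := by
    rw [card_quotient_eq_card_ker]; exact hker
  -- surjection `Fin c → Y / pY`
  obtain ⟨s, hs⟩ : ∃ s : Fin c → Y ⧸ f.range, Function.Surjective s := by
    have h0 : Nonempty (Y ⧸ f.range) := ⟨0⟩
    let e := Finite.equivFin (Y ⧸ f.range)
    refine ⟨fun i => if h : (i : ℕ) < Nat.card (Y ⧸ f.range) then e.symm ⟨i, h⟩ else 0, ?_⟩
    intro z
    refine ⟨⟨e z, lt_of_lt_of_le (e z).2 hquot⟩, ?_⟩
    simp
  choose l hl using fun z : Y ⧸ f.range => QuotientAddGroup.mk_surjective z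
  refine ⟨fun i => l (s i), ?_⟩
  set N := AddSubgroup.closure (Set.range fun i => l (s i)) with hN
  have hstep : ∀ y : Y, ∃ n ∈ N, ∃ z : Y, y = n + p • z := by
    intro y
    obtain ⟨i, hi⟩ := hs (QuotientAddGroup.mk y)
    refine ⟨l (s i), AddSubgroup.subset_closure ⟨i, rfl⟩, ?_⟩
    have h1 : (QuotientAddGroup.mk (l (s i)) : Y ⧸ f.range) = QuotientAddGroup.mk y := by
      rw [hl, hi]
    rw [QuotientAddGroup.eq] at h1
    obtain ⟨z, hz⟩ := h1
    refine ⟨z, ?_⟩
    have hz' : p • z = -l (s i) + y := hz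
    rw [hz', add_neg_cancel_left]
  have hpow : ∀ k : ℕ, ∀ y : Y, ∃ n ∈ N, ∃ z : Y, y = n + p ^ k • z := by
    intro k
    induction k with
    | zero => intro y; exact ⟨0, N.zero_mem, y, by rw [pow_zero, one_smul, zero_add]⟩
    | succ k ih =>
      intro y
      obtain ⟨n, hn, z, rfl⟩ := ih y
      obtain ⟨n', hn', z', rfl⟩ := hstep z
      refine ⟨n + p ^ k • n', N.add_mem hn (N.nsmul_mem hn' _), z', ?_⟩
      rw [smul_add, smul_smul, pow_succ, add_assoc]
  rw [eq_top_iff]
  intro y _
  obtain ⟨n, hn, z, rfl⟩ := hpow m y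
  rw [hp, add_zero]
  exact hn

end Gen

variable {R : Type} [CommRing R]

section Module

variable {T : Type} [CommRing T] [Algebra R T] {M : Type} [AddCommGroup M] [Module R M]

/-- Pure tensors with first factor in a set of representatives modulo an integer killing `M`
generate. -/
theorem sum_tmul_surjective (n : ℕ) (hn : ∀ x : M, n • x = 0) [Finite (T ⧸ Ideal.span {(n : T)})]
    [Fintype (T ⧸ Ideal.span {(n : T)})] :
    Function.Surjective (fun f : (T ⧸ Ideal.span {(n : T)}) → M =>
      ∑ i, (Quotient.out i : T) ⊗ₜ[R] f i) := by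
  classical
  have hmem : ∀ (t : T) (x : M), ((Quotient.out (Ideal.Quotient.mk (Ideal.span {(n : T)}) t) : T)
      ⊗ₜ[R] x) = t ⊗ₜ[R] x := by
    intro t x
    set s := (Quotient.out (Ideal.Quotient.mk (Ideal.span {(n : T)}) t) : T) with hs
    have h1 : Ideal.Quotient.mk (Ideal.span {(n : T)}) s = Ideal.Quotient.mk _ t :=
      Quotient.out_eq _
    rw [Ideal.Quotient.eq, Ideal.mem_span_singleton] at h1
    obtain ⟨u, hu⟩ := h1
    rw [← sub_eq_zero, ← TensorProduct.sub_tmul, hu, ← nsmul_eq_mul, TensorProduct.smul_tmul,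
      hn, TensorProduct.tmul_zero]
  intro z
  induction z using TensorProduct.induction_on with
  | zero => exact ⟨0, by simp⟩
  | tmul t x =>
    refine ⟨Pi.single (Ideal.Quotient.mk _ t) x, ?_⟩
    show ∑ i, (Quotient.out i : T) ⊗ₜ[R] (Pi.single (Ideal.Quotient.mk _ t) x :
      (T ⧸ Ideal.span {(n : T)}) → M) i = _
    refine (Finset.sum_eq_single (Ideal.Quotient.mk (Ideal.span {(n : T)}) t) ?_ ?_).trans ?_
    · intro j _ hj
      rw [Pi.single_eq_of_ne hj, TensorProduct.tmul_zero]
    · intro h; exact absurd (Finset.mem_univ _) h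
    · rw [Pi.single_eq_same, hmem]
  | add x y hx hy =>
    obtain ⟨f, hf⟩ := hx
    obtain ⟨g, hg⟩ := hy
    refine ⟨f + g, ?_⟩
    show ∑ i, (Quotient.out i : T) ⊗ₜ[R] (f i + g i) = x + y
    rw [← hf, ← hg, ← Finset.sum_add_distrib]
    exact Finset.sum_congr rfl fun i _ => TensorProduct.tmul_add _ _ _

theorem finite_tensor (n : ℕ) (hn : ∀ x : M, n • x = 0) [Finite (T ⧸ Ideal.span {(n : T)})]
    [Finite M] : Finite (T ⊗[R] M) := by
  have := Fintype.ofFinite (T ⧸ Ideal.span {(n : T)})
  exact Finite.of_surjective _ (sum_tmul_surjective (R := R) (T := T) (M := M) n hn)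

/-- Base change of a linear action. -/
def tensorRep (T : Type) [CommRing T] [Algebra R T] (act : GQ →* Module.End R M) :
    GQ →* Module.End T (T ⊗[R] M) where
  toFun g := (act g).baseChange T
  map_one' := by
    rw [map_one]
    exact LinearMap.baseChange_id
  map_mul' g h := by
    rw [map_mul]
    exact LinearMap.baseChange_comp _ _

@[simp] theorem tensorRep_tmul (act : GQ →* Module.End R M) (g : GQ) (t : T) (x : M) :
    tensorRep T act g (t ⊗ₜ x) = t ⊗ₜ act g x := LinearMap.baseChange_tmul _ _ _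

theorem tensorRep_openTrivial {act : GQ →* Module.End R M} (h : OpenTrivial act) :
    OpenTrivial (tensorRep T act) := by
  obtain ⟨L, hL, h⟩ := h
  refine ⟨L, hL, fun σ hσ => ?_⟩
  show (act σ).baseChange T = 1
  rw [h σ hσ]
  exact LinearMap.baseChange_id

theorem hasFlatModel_tensorRep (p : ℕ) {act : GQ →* Module.End R M} (n : ℕ)
    (hn : ∀ x : M, n • x = 0) [Finite (T ⧸ Ideal.span {(n : T)})] [Finite M]
    (h : HasFlatModel p (addAct act)) : HasFlatModel p (addAct (tensorRep T act)) := by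
  have := Fintype.ofFinite (T ⧸ Ideal.span {(n : T)})
  refine (h.pi (T ⧸ Ideal.span {(n : T)})).of_surjective
    ({ toFun := fun f => ∑ i, (Quotient.out i : T) ⊗ₜ[R] f i
       map_zero' := by simp
       map_add' := fun f g => by
        rw [← Finset.sum_add_distrib]
        exact Finset.sum_congr rfl fun i _ => TensorProduct.tmul_add _ _ _ } :
      ((T ⧸ Ideal.span {(n : T)}) → M) →+ T ⊗[R] M)
    (sum_tmul_surjective (R := R) (T := T) (M := M) n hn) ?_
  intro σ f
  show ∑ i, (Quotient.out i : T) ⊗ₜ[R] (act σ (f i)) =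
    tensorRep T act σ (∑ i, (Quotient.out i : T) ⊗ₜ[R] f i)
  rw [map_sum]
  rfl

/-- The relation at Frobenius elements passes to the base change. -/
theorem tensorRep_frobRel [IsLocalRing T] (ρ : GaloisRepAdic T) (S : Finset ℕ)
    {act : GQ →* Module.End R M}
    (h : ∀ ℓ : ℕ, ℓ.Prime → ℓ ∉ S → ∀ A : ValuationSubring (AlgebraicClosure ℚ),
      A.LiesOverPrime ℓ → ∀ σ : GQ, A.IsFrobeniusAt σ ℓ →
        ∃ t d : R, algebraMap R T t = LinearMap.trace T ρ.V (ρ.ρ σ) ∧
          algebraMap R T d = LinearMap.det (ρ.ρ σ) ∧ act σ + d • act σ⁻¹ = t • 1) :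
    FrobRel ρ S (tensorRep T act) := by
  intro ℓ hℓ hℓS A hA σ hσ
  obtain ⟨t, d, ht, hd, hrel⟩ := h ℓ hℓ hℓS A hA σ hσ
  rw [← ht, ← hd, algebraMap_smul, algebraMap_smul]
  show (act σ).baseChange T + d • (act σ⁻¹).baseChange T = _
  rw [← LinearMap.baseChange_smul, ← LinearMap.baseChange_add, hrel, LinearMap.baseChange_smul]
  rw [Module.End.one_eq_id, LinearMap.baseChange_id]
  rfl

end Module

section Main

variable {T : Type} [CommRing T] [IsLocalRing T] [Algebra R T]

/-- **Flatness by matching with base changes of `p`-power torsion modules.** -/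
theorem isFlatAt_of_tensor [IsNoetherianRing T] [IsAdicComplete (maximalIdeal T) T]
    [Finite (ResidueField T)] (ρ : GaloisRepAdic T) (h2 : IsUnit (2 : T))
    (hspan : Submodule.span T (Set.range ρ.ρ) = ⊤) (S : Finset ℕ) (p c : ℕ)
    [∀ m : ℕ, Finite (T ⧸ Ideal.span {((p ^ m : ℕ) : T)})]
    {M : ℕ → Type} [∀ m, AddCommGroup (M m)] [∀ m, Module R (M m)] [∀ m, Finite (M m)]
    (act : ∀ m, GQ →* Module.End R (M m)) (hsm : ∀ m, OpenTrivial (act m))
    (hM : ∀ m, ∀ x : M m, p ^ m • x = 0) (hc : ∀ m, Nat.card {y : M m // p • y = 0} ≤ c)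
    (hfrob : ∀ m, ∀ ℓ : ℕ, ℓ.Prime → ℓ ∉ S → ∀ A : ValuationSubring (AlgebraicClosure ℚ),
      A.LiesOverPrime ℓ → ∀ σ : GQ, A.IsFrobeniusAt σ ℓ →
        ∃ t d : R, algebraMap R T t = LinearMap.trace T ρ.V (ρ.ρ σ) ∧
          algebraMap R T d = LinearMap.det (ρ.ρ σ) ∧ act m σ + d • act m σ⁻¹ = t • 1)
    (hsupp : ∀ α : T, (∀ m, α ∈ (Module.annihilator R (M m)).map (algebraMap R T)) → α = 0)
    (hred : IsReduced T)
    (hflat : ∀ m, HasFlatModel p (addAct (act m))) : ρ.IsFlatAt p := by
  have hfin : ∀ m, Finite (T ⊗[R] M m) := fun m => finite_tensor (p ^ m) (hM m)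
  refine isFlatAt_of_matching ρ h2 hspan S (fun m => tensorRep T (act m))
    (fun m => tensorRep_openTrivial (hsm m)) (fun m => tensorRep_frobRel ρ S (hfrob m)) ?_ p
    (fun m => hasFlatModel_tensorRep p (p ^ m) (hM m) (hflat m))
  intro α hα
  have hpow : α ^ c = 0 := by
    refine hsupp _ fun m => ?_
    obtain ⟨y, hy⟩ := exists_generators p m c (hM m) (hc m)
    refine pow_mem_map_annihilator y ?_ α fun z => Module.mem_annihilator.mp (hα m) z
    rw [eq_top_iff]
    intro x _
    have hx : x ∈ AddSubgroup.closure (Set.range y) := by rw [hy]; trivial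
    have hle : AddSubgroup.closure (Set.range y) ≤ (Submodule.span R (Set.range y)).toAddSubgroup := by
      rw [AddSubgroup.closure_le]
      exact Submodule.subset_span
    exact hle hx
  exact IsReduced.eq_zero α ⟨c, hpow⟩
end Main

end

end Fermat.FlatMatch
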