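import Fermat.Prelude.Def_CuspForm_HeckeGaloisRepDatum
import Fermat.Prelude.Def_ModularCurve_HeckeModule
import Fermat.Agent.FlatMatch.Tensor
import Fermat.Agent.FlatMatch.Span
import Fermat.Agent.RT.Components
import Fermat.Agent.RT.Reduced
import Fermat.Agent.Petersson.Reduced

set_option autoImplicit false

/-!
# Flatness of the representation of a `HeckeGaloisRepDatum` from explicit inputs on `J₀(N)`
-/

namespace Fermat.FlatMatch

open IsLocalRing Fermat.FlatModel ModularCurve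
open scoped TensorProduct

noncomputable section

/-- The anemic abstract Hecke algebra: polynomials in the `T_ℓ`, `ℓ ∉ S`. -/
abbrev AnemicAlg (S : Finset ℕ) : Type := MvPolynomial {ℓ : Nat.Primes // (ℓ : ℕ) ∉ S} ℤ

/-- The inclusion of the anemic algebra in the full abstract Hecke algebra. -/
def anemicIncl (S : Finset ℕ) : AnemicAlg S →ₐ[ℤ] HeckeAlg :=
  MvPolynomial.rename Subtype.val

/-- The evaluation of the anemic abstract Hecke algebra in the Hecke algebra of forms. -/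
def anemicEval {N : ℕ} [NeZero N] {S : Finset ℕ}
    (hNS : ∀ q : ℕ, q.Prime → q ∣ N → q ∈ S) :
    AnemicAlg S →ₐ[ℤ] CuspForm.heckeAlgebra N 2 (↑S : Set ℕ) :=
  MvPolynomial.aeval fun ℓ => CuspForm.heckeAlgebra.T (S := (↑S : Set ℕ)) (k := 2) ℓ.1.2
    (fun h => ℓ.2 (hNS _ ℓ.1.2 h)) (fun h => ℓ.2 (Finset.mem_coe.mp h))

/-- **Support input** for a Hecke module `J`. -/
def Support (N p : ℕ) [NeZero N] (S : Finset ℕ) (J : Type) [AddCommGroup J]
    [Module HeckeAlg J] : Prop :=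
  ∀ (hNS : ∀ q : ℕ, q.Prime → q ∣ N → q ∈ S)
    (𝒪' : Type) [CommRing 𝒪'] [IsDomain 𝒪'] [IsDiscreteValuationRing 𝒪'] [CharZero 𝒪']
    (χ : CuspForm.heckeAlgebra N 2 (↑S : Set ℕ) →+* 𝒪') (n : ℕ) (a : AnemicAlg S),
    (∀ x : J, p ^ n • x = 0 → anemicIncl S a • x = 0) →
      (p : 𝒪') ^ n ∣ χ (anemicEval hNS a)

section Torsion

variable {J : Type} [AddCommGroup J] [DistribMulAction GQ J]

theorem gal_nsmul (g : GQ) (n : ℕ) (x : J) : g • (n • x) = n • (g • x) :=
  map_nsmul (DistribSMul.toAddMonoidHom J g) n x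

/-- If `J[p]` is finite so is `J[p^n]`. -/
theorem finite_torsion_pow {J : Type} [AddCommGroup J] (p : ℕ) (hfin : Finite {x : J // p • x = 0})
    (n : ℕ) : Finite {x : J // p ^ n • x = 0} := by
  induction n with
  | zero =>
    have : Subsingleton {x : J // p ^ 0 • x = 0} := by
      constructor
      rintro ⟨x, hx⟩ ⟨y, hy⟩
      rw [pow_zero, one_smul] at hx hy
      exact Subtype.ext (hx.trans hy.symm)
    infer_instance
  | succ n ih =>
    let K : AddSubgroup J := (nsmulAddMonoidHom (α := J) (p ^ (n + 1))).ker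
    let f : K →+ J := (nsmulAddMonoidHom (α := J) (p ^ n)).comp K.subtype
    have hrange : Finite f.range := by
      have hle : ∀ y ∈ f.range, p • y = 0 := by
        rintro _ ⟨⟨x, hx⟩, rfl⟩
        show p • (p ^ n • x) = 0
        rw [smul_smul, ← pow_succ']
        exact hx
      exact Finite.of_injective (fun y : f.range => (⟨y.1, hle y.1 y.2⟩ : {x : J // p • x = 0}))
        (fun a b h => Subtype.ext (congrArg (fun z : {x : J // p • x = 0} => (z : J)) h))
    have hker : Finite f.ker := by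
      exact Finite.of_injective
        (fun y : f.ker => (⟨y.1.1, y.2⟩ : {x : J // p ^ n • x = 0}))
        (fun a b h => Subtype.ext (Subtype.ext
          (congrArg (fun z : {x : J // p ^ n • x = 0} => (z : J)) h)))
    have h1 : Finite (K ⧸ f.ker) :=
      Finite.of_equiv _ (QuotientAddGroup.quotientKerEquivRange f).toEquiv.symm
    have h2 : Finite K := by
      exact Finite.of_equiv ((K ⧸ f.ker) × f.ker)
        AddSubgroup.addGroupEquivQuotientProdAddSubgroup.symm
    exact Finite.of_injective (fun x : {x : J // p ^ (n + 1) • x = 0} => (⟨x.1, x.2⟩ : K))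
      (fun a b h => Subtype.ext (congrArg (fun z : K => (z : J)) h))

variable {R : Type} [CommRing R] [Module R J] [SMulCommClass GQ R J]

/-- The Galois action on `J[n]`. -/
def torsAct (R J : Type) [CommRing R] [AddCommGroup J] [DistribMulAction GQ J] [Module R J]
    [SMulCommClass GQ R J] (n : ℕ) : GQ →* Module.End R (Submodule.torsionBy R J ((n : ℕ) : R)) where
  toFun g :=
    { toFun := fun x => ⟨g • (x : J), by
        rw [Submodule.mem_torsionBy_iff, ← smul_comm, (Submodule.mem_torsionBy_iff _ _).mp x.2,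
          smul_zero]⟩
      map_add' := fun x y => Subtype.ext (smul_add g (x : J) (y : J))
      map_smul' := fun r x => Subtype.ext (smul_comm g r (x : J)) }
  map_one' := LinearMap.ext fun x => Subtype.ext (one_smul _ _)
  map_mul' g h := LinearMap.ext fun x => Subtype.ext (mul_smul _ _ _)

@[simp] theorem coe_torsAct (n : ℕ) (g : GQ) (x : Submodule.torsionBy R J ((n : ℕ) : R)) :
    ((torsAct R J n g x : Submodule.torsionBy R J ((n : ℕ) : R)) : J) = g • (x : J) := rfl

omit [DistribMulAction GQ J] [SMulCommClass GQ R J] in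
theorem mem_torsionBy_iff' (n : ℕ) (x : J) :
    x ∈ Submodule.torsionBy R J ((n : ℕ) : R) ↔ n • x = 0 := by
  rw [Submodule.mem_torsionBy_iff, Nat.cast_smul_eq_nsmul]

end Torsion

section Supp

variable {p : ℕ} {N : ℕ} [NeZero N] {S : Finset ℕ}
  {𝒪 : Type} [CommRing 𝒪] [IsDomain 𝒪] [IsDiscreteValuationRing 𝒪]
  [IsAdicComplete (IsLocalRing.maximalIdeal 𝒪) 𝒪]
  {θ : CuspForm.heckeAlgebra N 2 (↑S : Set ℕ) →+* IsLocalRing.ResidueField 𝒪}
  {T : Type} [CommRing T] [IsLocalRing T] [IsNoetherianRing T]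
  [IsAdicComplete (IsLocalRing.maximalIdeal T) T] [Algebra 𝒪 T] [IsLocalHom (algebraMap 𝒪 T)]
  [Module.Finite 𝒪 T] [Module.Free 𝒪 T]

omit [IsAdicComplete (IsLocalRing.maximalIdeal 𝒪) 𝒪] in
/-- Quotients of a DVR with finite residue field by nonzero elements are finite. -/
theorem finite_quotient_of_ne_zero [Finite (ResidueField 𝒪)] {x : 𝒪} (hx : x ≠ 0) :
    Finite (𝒪 ⧸ Ideal.span {x}) := by
  obtain ⟨ϖ, hϖ⟩ := IsDiscreteValuationRing.exists_irreducible 𝒪
  have hne : Ideal.span {x} ≠ ⊥ := by rwa [Ne, Ideal.span_singleton_eq_bot]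
  obtain ⟨n, hn⟩ := IsDiscreteValuationRing.ideal_eq_span_pow_irreducible hne hϖ
  rw [hn, ← Ideal.span_singleton_pow, ← hϖ.maximalIdeal_eq]
  exact finite_quotient_pow n

omit [IsAdicComplete (IsLocalRing.maximalIdeal 𝒪) 𝒪] [IsLocalRing T] [IsNoetherianRing T]
  [IsAdicComplete (IsLocalRing.maximalIdeal T) T] [IsLocalHom (algebraMap 𝒪 T)]
  [Module.Free 𝒪 T] in
theorem finite_quotient_algebra [Finite (ResidueField 𝒪)] {x : 𝒪} (hx : x ≠ 0) :
    Finite (T ⧸ Ideal.span {algebraMap 𝒪 T x}) := by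
  have h0 := finite_quotient_of_ne_zero hx
  have h1 : Module.IsTorsionBySet 𝒪 (T ⧸ Ideal.span {algebraMap 𝒪 T x})
      (Ideal.span {x} : Set 𝒪) := by
    rintro z ⟨a, ha⟩
    obtain ⟨c, rfl⟩ := Ideal.mem_span_singleton'.mp ha
    obtain ⟨z, rfl⟩ := Ideal.Quotient.mk_surjective z
    show (c * x) • (Ideal.Quotient.mk _ z) = 0
    rw [Algebra.smul_def, IsScalarTower.algebraMap_apply 𝒪 T (T ⧸ _), Ideal.Quotient.algebraMap_eq,
      ← map_mul, Ideal.Quotient.eq_zero_iff_mem, map_mul]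
    refine Ideal.mul_mem_right _ _ (Ideal.mul_mem_left _ _ (Ideal.mem_span_singleton_self _))
  let _ : Module (𝒪 ⧸ Ideal.span {x}) (T ⧸ Ideal.span {algebraMap 𝒪 T x}) := h1.module
  have h2 : IsScalarTower 𝒪 (𝒪 ⧸ Ideal.span {x}) (T ⧸ Ideal.span {algebraMap 𝒪 T x}) :=
    h1.isScalarTower
  have h3 : Module.Finite 𝒪 (T ⧸ Ideal.span {algebraMap 𝒪 T x}) :=
    Module.Finite.of_surjective
      ((Ideal.Quotient.mkₐ 𝒪 (Ideal.span {algebraMap 𝒪 T x})).toLinearMap)
      Ideal.Quotient.mk_surjective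
  have h4 : Module.Finite (𝒪 ⧸ Ideal.span {x}) (T ⧸ Ideal.span {algebraMap 𝒪 T x}) :=
    Module.Finite.of_restrictScalars_finite 𝒪 _ _
  exact Module.finite_of_finite (𝒪 ⧸ Ideal.span {x})

end Supp

section Main

variable {p : ℕ} {N : ℕ} [NeZero N] {S : Finset ℕ}
  {𝒪 : Type} [CommRing 𝒪] [IsDomain 𝒪] [IsDiscreteValuationRing 𝒪]
  [IsAdicComplete (IsLocalRing.maximalIdeal 𝒪) 𝒪]
  {θ : CuspForm.heckeAlgebra N 2 (↑S : Set ℕ) →+* IsLocalRing.ResidueField 𝒪}
  {T : Type} [CommRing T] [IsLocalRing T] [IsNoetherianRing T]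
  [IsAdicComplete (IsLocalRing.maximalIdeal T) T] [Algebra 𝒪 T] [IsLocalHom (algebraMap 𝒪 T)]
  [Module.Finite 𝒪 T]

/-- **Core of S32**: flatness at `p` of a residually absolutely irreducible `ρ` over a reduced
finite torsion-free local `𝒪`-algebra `T`, whose Frobenius polynomials come from a map
`π : heckeAlgebra N 2 S → T`, from inputs on a Galois–Hecke module `J` (in practice `J₀(N)`). -/
theorem isFlatAt_core [Finite (ResidueField 𝒪)] [CharZero 𝒪] [Module.IsTorsionFree 𝒪 T]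
    (hred : IsReduced T)
    (hp : p.Prime) (hp2 : p ≠ 2) (hp𝒪 : (p : 𝒪) ∈ maximalIdeal 𝒪)
    (hpS : p ∈ S) (hNS : ∀ q : ℕ, q.Prime → q ∣ N → q ∈ S)
    (π : CuspForm.heckeAlgebra N 2 (↑S : Set ℕ) →+* T) (ρ : GaloisRepAdic T)
    (hcharpoly : ∀ (ℓ : ℕ) (hℓ : ℓ.Prime) (hℓN : ¬ ℓ ∣ N) (hℓS : ℓ ∉ (↑S : Set ℕ)),
      ∀ A : ValuationSubring (AlgebraicClosure ℚ), A.LiesOverPrime ℓ →
        ∀ σ : AlgebraicClosure ℚ ≃ₐ[ℚ] AlgebraicClosure ℚ, A.IsFrobeniusAt σ ℓ →
          LinearMap.charpoly (ρ.ρ σ) = Polynomial.X ^ 2 -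
            Polynomial.C (π (CuspForm.heckeAlgebra.T hℓ hℓN hℓS)) * Polynomial.X +
            Polynomial.C ((ℓ : T)))
    (hirr : ρ.residual.IsAbsolutelyIrreducible)
    (J : Type) [AddCommGroup J] [Module HeckeAlg J] [DistribMulAction GQ J]
    [SMulCommClass GQ HeckeAlg J]
    (hsmooth : ∀ x : J, ∃ L : IntermediateField ℚ (AlgebraicClosure ℚ), FiniteDimensional ℚ L ∧
      ∀ g : GQ, (∀ y ∈ L, g y = y) → g • x = x)
    (hfrob : FrobeniusQuadratic (K := ℚ) (L := AlgebraicClosure ℚ) N p J)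
    (hfin : Finite {x : J // p • x = 0}) (hsupp : Support N p S J)
    (hflat : ∀ k, HasFlatModel p (addAct (torsAct ℤ J (p ^ k)))) : ρ.IsFlatAt p := by
  -- the residue field of `T` is finite
  have hres : Finite (ResidueField T) := Fermat.Agent.RT.Components.finite_residueField (R := 𝒪)
  -- `2` is a unit
  have hpT : (p : T) ∈ maximalIdeal T := by
    rw [← map_natCast (algebraMap 𝒪 T) p]
    exact map_nonunit (algebraMap 𝒪 T) _ hp𝒪
  have h2 : IsUnit (2 : T) := by
    by_contra h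
    have h2' : (2 : T) ∈ maximalIdeal T := h
    obtain ⟨k, hk⟩ := hp.odd_of_ne_two hp2
    have h1 : (1 : T) ∈ maximalIdeal T := by
      have h3 : (1 : T) = (p : T) - 2 * (k : T) := by rw [hk]; push_cast; ring
      rw [h3]
      exact Ideal.sub_mem _ hpT (Ideal.mul_mem_right _ _ h2')
    exact (Ideal.ne_top_iff_one _).mp (maximalIdeal.isMaximal T).ne_top h1
  have hspan := span_eq_top_of_residual ρ hirr
  -- finiteness of `T / p^m`
  have hfinT : ∀ m : ℕ, Finite (T ⧸ Ideal.span {((p ^ m : ℕ) : T)}) := by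
    intro m
    have : ((p ^ m : ℕ) : 𝒪) ≠ 0 := by
      rw [Nat.cast_ne_zero]
      exact pow_ne_zero _ hp.ne_zero
    have h := finite_quotient_algebra (T := T) this
    rwa [map_natCast] at h
  -- the Hecke algebra `R`
  let R := AnemicAlg S
  let algRT : Algebra R T := (π.comp (anemicEval hNS).toRingHom).toAlgebra
  have halg : ∀ a : R, algebraMap R T a = π (anemicEval hNS a) := fun _ => rfl
  let modRJ : Module R J := Module.compHom J (anemicIncl S).toRingHom
  have hsmul : ∀ (a : R) (x : J), a • x = anemicIncl S a • x := fun _ _ => rfl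
  have hcommR : SMulCommClass GQ R J :=
    ⟨fun g a x => by rw [hsmul, hsmul, smul_comm]⟩
  have hfinpow := finite_torsion_pow p hfin
  have hfinM : ∀ m : ℕ, Finite (Submodule.torsionBy R J ((p ^ m : ℕ) : R)) := by
    intro m
    have := hfinpow m
    exact Finite.of_injective (fun x : Submodule.torsionBy R J ((p ^ m : ℕ) : R) =>
      (⟨x.1, (mem_torsionBy_iff' _ _).mp x.2⟩ : {x : J // p ^ m • x = 0}))
      (fun a b h => Subtype.ext (congrArg (fun z : {x : J // p ^ m • x = 0} => (z : J)) h))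
  have hkill : ∀ m, ∀ x : Submodule.torsionBy R J ((p ^ m : ℕ) : R), p ^ m • x = 0 := fun m x =>
    Subtype.ext ((mem_torsionBy_iff' _ _).mp x.2)
  refine isFlatAt_of_tensor (R := R) ρ h2 hspan S p (Nat.card {x : J // p • x = 0})
    (M := fun m => Submodule.torsionBy R J ((p ^ m : ℕ) : R))
    (fun m => torsAct R J (p ^ m)) ?_ hkill ?_ ?_ ?_ hred ?_
  · -- open kernel
    intro m
    choose L hL hL2 using hsmooth
    refine ⟨⨆ x : Submodule.torsionBy R J ((p ^ m : ℕ) : R), L x.1, ?_, fun σ hσ => ?_⟩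
    · have : ∀ x : Submodule.torsionBy R J ((p ^ m : ℕ) : R), FiniteDimensional ℚ (L x.1) :=
        fun x => hL x.1
      exact IntermediateField.finiteDimensional_iSup_of_finite
    · refine LinearMap.ext fun x => Subtype.ext ?_
      exact hL2 x.1 σ fun y hy =>
        hσ y (le_iSup (fun x : Submodule.torsionBy R J ((p ^ m : ℕ) : R) => L x.1) x hy)
  · intro m
    have := hfin
    exact Nat.card_le_card_of_injective
      (fun y : {y : Submodule.torsionBy R J ((p ^ m : ℕ) : R) // p • y = 0} =>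
        (⟨y.1.1, congrArg Subtype.val y.2⟩ : {x : J // p • x = 0}))
      (fun a b h => Subtype.ext (Subtype.ext
        (congrArg (fun z : {x : J // p • x = 0} => (z : J)) h)))
  · -- Frobenius relations
    intro m ℓ hℓ hℓS A hA σ hσ
    have hℓN : ¬ ℓ ∣ N := fun h => hℓS (hNS ℓ hℓ h)
    have hℓS' : ℓ ∉ (↑S : Set ℕ) := fun h => hℓS (Finset.mem_coe.mp h)
    have hℓNp : ¬ ℓ ∣ N * p := by
      intro h
      rcases (Nat.Prime.dvd_mul hℓ).mp h with h | h
      · exact hℓN h
      · rw [(Nat.prime_dvd_prime_iff_eq hℓ hp).mp h] at hℓS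
        exact hℓS hpS
    have hcp := hcharpoly ℓ hℓ hℓN hℓS' A hA σ hσ
    have hnt : Nontrivial ρ.V := Module.nontrivial_of_finrank_pos (R := T)
      (by rw [ρ.finrank_eq]; norm_num)
    rw [Fermat.Agent.BN2.charpoly_eq_of_finrank_two ρ.finrank_eq] at hcp
    have htr : LinearMap.trace T ρ.V (ρ.ρ σ) =
        π (CuspForm.heckeAlgebra.T hℓ hℓN hℓS') := by
      have := congrArg (fun P => Polynomial.coeff P 1) hcp
      simpa [Polynomial.coeff_X, Polynomial.coeff_C] using this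
    have hdet : LinearMap.det (ρ.ρ σ) = (ℓ : T) := by
      have := congrArg (fun P => Polynomial.coeff P 0) hcp
      simpa [Polynomial.coeff_X, Polynomial.coeff_C] using this
    refine ⟨MvPolynomial.X ⟨⟨ℓ, hℓ⟩, hℓS⟩, (ℓ : R), ?_, ?_, ?_⟩
    · rw [htr, halg, anemicEval, MvPolynomial.aeval_X]
    · rw [hdet, map_natCast]
    · refine LinearMap.ext fun x => Subtype.ext ?_
      have hx : p ^ m • (x : J) = 0 := (mem_torsionBy_iff' _ _).mp x.2
      have h := hfrob ℓ hℓ hℓNp A hA σ hσ (σ⁻¹ • (x : J)) ⟨m, by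
        rw [← gal_nsmul, hx, smul_zero]⟩
      rw [smul_inv_smul] at h
      show σ • (x : J) + (ℓ : R) • (σ⁻¹ • (x : J)) = MvPolynomial.X _ • (x : J)
      rw [Nat.cast_smul_eq_nsmul, hsmul, anemicIncl, MvPolynomial.rename_X]
      rw [sub_add_eq_add_sub, sub_eq_zero] at h
      exact h
  · -- support
    intro α hα
    refine Fermat.Agent.RT.Components.eq_zero_of_forall_components 𝒪 T α ?_
    intro 𝒪' _ _ _ _ _ _ _ _ _ _ _ φ
    have hp𝒪' : (p : 𝒪') ∈ maximalIdeal 𝒪' := by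
      rw [← map_natCast (algebraMap 𝒪 𝒪') p]
      exact map_nonunit (algebraMap 𝒪 𝒪') _ hp𝒪
    have hmem : ∀ m : ℕ, φ α ∈ maximalIdeal 𝒪' ^ m := by
      intro m
      have hle : (Module.annihilator R (Submodule.torsionBy R J ((p ^ m : ℕ) : R))).map
          (algebraMap R T) ≤ (maximalIdeal 𝒪' ^ m).comap φ.toRingHom := by
        rw [Ideal.map_le_iff_le_comap]
        intro a ha
        rw [Ideal.mem_comap, Ideal.mem_comap, halg]
        have h := hsupp hNS 𝒪' (φ.toRingHom.comp π) m a (fun x hx => by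
          have h1 := Module.mem_annihilator.mp ha ⟨x, (mem_torsionBy_iff' _ _).mpr hx⟩
          exact congrArg Subtype.val h1)
        obtain ⟨c, hc⟩ := h
        show (φ.toRingHom.comp π) (anemicEval hNS a) ∈ _
        rw [hc]
        exact Ideal.mul_mem_right _ _ (Ideal.pow_mem_pow hp𝒪' m)
      exact hle (hα m)
    have hinf : φ α ∈ ⨅ m : ℕ, maximalIdeal 𝒪' ^ m := by
      rw [Ideal.mem_iInf]
      exact hmem
    rwa [Ideal.iInf_pow_eq_bot_of_isLocalRing _ (maximalIdeal.isMaximal 𝒪').ne_top,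
      Ideal.mem_bot] at hinf
  · -- flat models
    intro m
    have := hfinM m
    have hfinZ : Finite (Submodule.torsionBy ℤ J ((p ^ m : ℕ) : ℤ)) := by
      have := hfinpow m
      exact Finite.of_injective (fun x : Submodule.torsionBy ℤ J ((p ^ m : ℕ) : ℤ) =>
        (⟨x.1, (mem_torsionBy_iff' _ _).mp x.2⟩ : {x : J // p ^ m • x = 0}))
        (fun a b h => Subtype.ext (congrArg (fun z : {x : J // p ^ m • x = 0} => (z : J)) h))
    refine (hflat m).congr
      { toFun := fun x => ⟨x.1, (mem_torsionBy_iff' _ _).mpr ((mem_torsionBy_iff' _ _).mp x.2)⟩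
        invFun := fun x => ⟨x.1, (mem_torsionBy_iff' _ _).mpr ((mem_torsionBy_iff' _ _).mp x.2)⟩
        left_inv := fun _ => rfl
        right_inv := fun _ => rfl
        map_add' := fun _ _ => rfl } ?_
    intro σ x
    rfl

/-- **Flatness at `p` of the representation of a datum**, from inputs on a Galois–Hecke module
`J` (in practice `J₀(N)`). -/
theorem isFlatAt_of_inputs [Module.Free 𝒪 T] [Finite (ResidueField 𝒪)] [CharZero 𝒪]
    (hp : p.Prime) (hp2 : p ≠ 2) (hp𝒪 : (p : 𝒪) ∈ maximalIdeal 𝒪)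
    (hpS : p ∈ S) (hNS : ∀ q : ℕ, q.Prime → q ∣ N → q ∈ S)
    (H : CuspForm.HeckeGaloisRepDatum N (↑S : Set ℕ) 𝒪 θ T)
    (hh : Module.Finite ℤ (CuspForm.heckeAlgebra N 2 (↑S : Set ℕ)))
    (J : Type) [AddCommGroup J] [Module HeckeAlg J] [DistribMulAction GQ J]
    [SMulCommClass GQ HeckeAlg J]
    (hsmooth : ∀ x : J, ∃ L : IntermediateField ℚ (AlgebraicClosure ℚ), FiniteDimensional ℚ L ∧
      ∀ g : GQ, (∀ y ∈ L, g y = y) → g • x = x)
    (hfrob : FrobeniusQuadratic (K := ℚ) (L := AlgebraicClosure ℚ) N p J)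
    (hfin : Finite {x : J // p • x = 0}) (hsupp : Support N p S J)
    (hflat : ∀ k, HasFlatModel p (addAct (torsAct ℤ J (p ^ k)))) : H.ρ.IsFlatAt p := by
  have hredh : IsReduced (CuspForm.heckeAlgebra N 2 (↑S : Set ℕ)) :=
    Fermat.Agent.Petersson.isReduced_heckeAlgebra hNS
  have hred : IsReduced T := Fermat.Agent.RT.Reduced.isReduced_of_adjoin_range_eq_top
    (CuspForm.heckeAlgebra N 2 (↑S : Set ℕ)) 𝒪 T H.π H.adjoin_range_π
  exact isFlatAt_core (𝒪 := 𝒪) hred hp hp2 hp𝒪 hpS hNS H.π H.ρ H.charpoly_frob H.residual_absIrr J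
    hsmooth hfrob hfin hsupp hflat

end Main

end

end Fermat.FlatMatch
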