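import Fermat.Agent.FlatMatch.SubMatch
import Fermat.Agent.FlatOrd.Cyc
import Fermat.Agent.FrobCompareDet
import Fermat.Agent.CMP.Density
import Fermat.Agent.Flat.Descent

set_option autoImplicit false

/-!
# Ordinarity at `p` of the `p`-new representations, from a multiplicativity statement on `J[p]`
-/

namespace Fermat.FlatMatch

open IsLocalRing Fermat.FlatModel ModularCurve

noncomputable section

section Lattice

variable {O V : Type} [CommRing O] [IsDomain O] [IsPrincipalIdealRing O] [AddCommGroup V]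
  [Module O V] [Module.Finite O V] [Module.Free O V]

/-- A saturated submodule of rank one in a free module of rank two. -/
theorem exists_basis_of_saturated (h2 : Module.finrank O V = 2) (L : Submodule O V)
    (hL : ∀ c : O, c ≠ 0 → ∀ v : V, c • v ∈ L → v ∈ L) (h0 : L ≠ ⊥) (h1 : L ≠ ⊤) :
    ∃ b : Module.Basis (Fin 2) O V, L = O ∙ b 0 := by
  have htf : Module.IsTorsionFree O (V ⧸ L) := by
    rw [Module.isTorsionFree_iff_smul_eq_zero]
    intro c x hcx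
    obtain ⟨v, rfl⟩ := Submodule.Quotient.mk_surjective _ x
    rw [← Submodule.Quotient.mk_smul, Submodule.Quotient.mk_eq_zero] at hcx
    by_cases hc : c = 0
    · exact Or.inl hc
    · exact Or.inr ((Submodule.Quotient.mk_eq_zero _).mpr (hL c hc v hcx))
  have hfree : Module.Free O (V ⧸ L) := Module.free_of_finite_type_torsion_free'
  have hfreeL : Module.Free O L := inferInstance
  have hadd := Submodule.finrank_quotient_add_finrank L
  rw [h2] at hadd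
  have hL0 : Module.finrank O L ≠ 0 := by
    intro h
    apply h0
    exact Submodule.finrank_eq_zero.mp h
  have hQ0 : Module.finrank O (V ⧸ L) ≠ 0 := by
    intro h
    apply h1
    have : Subsingleton (V ⧸ L) := (Module.finrank_eq_zero_iff_of_free O (V ⧸ L)).mp h
    exact Submodule.Quotient.subsingleton_iff.mp this
  have hL1 : Module.finrank O L = 1 := by omega
  have hQ1 : Module.finrank O (V ⧸ L) = 1 := by omega
  let bL : Module.Basis (Fin 1) O L := Module.finBasisOfFinrankEq O L hL1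
  let bQ : Module.Basis (Fin 1) O (V ⧸ L) := Module.finBasisOfFinrankEq O (V ⧸ L) hQ1
  let b := (Module.Basis.sumQuot bL bQ).reindex finSumFinEquiv
  refine ⟨b, ?_⟩
  have hb : b 0 = bL 0 := by
    show (Module.Basis.sumQuot bL bQ).reindex finSumFinEquiv 0 = _
    rw [Module.Basis.reindex_apply]
    have : finSumFinEquiv.symm (0 : Fin (1 + 1)) = Sum.inl (0 : Fin 1) := rfl
    rw [this, Module.Basis.sumQuot_inl]
  rw [hb]
  apply le_antisymm
  · intro v hv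
    have h3 := bL.sum_repr ⟨v, hv⟩
    rw [Fin.sum_univ_one] at h3
    rw [Submodule.mem_span_singleton]
    exact ⟨_, congrArg Subtype.val h3⟩
  · rw [Submodule.span_singleton_le_iff_mem]
    exact (bL 0).2

end Lattice

section Main

variable {p : ℕ} {N : ℕ} [NeZero N] {S : Finset ℕ}
  {𝒪 : Type} [CommRing 𝒪] [IsDomain 𝒪] [IsDiscreteValuationRing 𝒪]
  [IsAdicComplete (IsLocalRing.maximalIdeal 𝒪) 𝒪]

/-- Conjugation by the decomposition group preserves the inertia group. -/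
theorem conj_mem_inertia' {A : ValuationSubring (AlgebraicClosure ℚ)} {δ σ : GQ}
    (hδ : δ ∈ A.decompositionSubgroup ℚ) (hσ : σ ∈ A.inertiaSubgroupIn ℚ) :
    δ * σ * δ⁻¹ ∈ A.inertiaSubgroupIn ℚ := by
  obtain ⟨τ, hτ, rfl⟩ := hσ
  let d : A.decompositionSubgroup ℚ := ⟨δ, hδ⟩
  have hn : (A.inertiaSubgroup ℚ).Normal := MonoidHom.normal_ker _
  exact ⟨d * τ * d⁻¹, hn.conj_mem τ hτ d, rfl⟩

omit [IsAdicComplete (IsLocalRing.maximalIdeal 𝒪) 𝒪] in
theorem infinite_of_charZero (𝒪 : Type) [CommRing 𝒪] [CharZero 𝒪] : Infinite 𝒪 :=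
  Infinite.of_injective (fun n : ℕ => (n : 𝒪)) Nat.cast_injective

/-- If `g ≡ a` modulo `𝔪 V` then `det g ≡ a ^ 2`. -/
theorem det_sub_sq_mem {O V : Type} [CommRing O] [AddCommGroup V] [Module O V]
    (b : Module.Basis (Fin 2) O V) (ϖ a : O) (g : Module.End O V)
    (hg : ∀ u : V, ∃ w : V, g u - a • u = ϖ • w) :
    LinearMap.det g - a ^ 2 ∈ Ideal.span {ϖ} := by
  obtain ⟨w0, h0⟩ := hg (b 0)
  obtain ⟨w1, h1⟩ := hg (b 1)
  rw [sub_eq_iff_eq_add] at h0 h1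
  rw [← LinearMap.det_toMatrix b, Matrix.det_fin_two, LinearMap.toMatrix_apply,
    LinearMap.toMatrix_apply, LinearMap.toMatrix_apply, LinearMap.toMatrix_apply, h0, h1]
  simp only [map_add, map_smul, Finsupp.add_apply, Finsupp.smul_apply, Module.Basis.repr_self,
    smul_eq_mul]
  rw [Finsupp.single_eq_same, Finsupp.single_eq_same, Finsupp.single_eq_of_ne (by decide),
    Finsupp.single_eq_of_ne (by decide), Ideal.mem_span_singleton]
  exact ⟨b.repr w0 0 * a + a * b.repr w1 1 + ϖ * b.repr w0 0 * b.repr w1 1 -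
    ϖ * b.repr w1 0 * b.repr w0 1, by ring⟩

/-- **`p`-new and multiplicative implies ordinary.** -/
theorem exists_line_of_new [Finite (ResidueField 𝒪)] [CharZero 𝒪]
    (hp : p.Prime) (hp2 : p ≠ 2) (hp𝒪 : (p : 𝒪) ∈ maximalIdeal 𝒪)
    (hpS : p ∈ S) (hNS : ∀ q : ℕ, q.Prime → q ∣ N → q ∈ S)
    (π : CuspForm.heckeAlgebra N 2 (↑S : Set ℕ) →+* 𝒪) (ρ : GaloisRepAdic 𝒪)
    (hcharpoly : ∀ (ℓ : ℕ) (hℓ : ℓ.Prime) (hℓN : ¬ ℓ ∣ N) (hℓS : ℓ ∉ (↑S : Set ℕ)),
      ∀ A : ValuationSubring (AlgebraicClosure ℚ), A.LiesOverPrime ℓ →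
        ∀ σ : AlgebraicClosure ℚ ≃ₐ[ℚ] AlgebraicClosure ℚ, A.IsFrobeniusAt σ ℓ →
          LinearMap.charpoly (ρ.ρ σ) = Polynomial.X ^ 2 -
            Polynomial.C (π (CuspForm.heckeAlgebra.T hℓ hℓN hℓS)) * Polynomial.X +
            Polynomial.C ((ℓ : 𝒪)))
    (hirr : ρ.residual.IsAbsolutelyIrreducible)
    (J : Type) [AddCommGroup J] [Module HeckeAlg J] [DistribMulAction GQ J]
    [SMulCommClass GQ HeckeAlg J]
    (hsmooth : ∀ x : J, ∃ L : IntermediateField ℚ (AlgebraicClosure ℚ), FiniteDimensional ℚ L ∧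
      ∀ g : GQ, (∀ y ∈ L, g y = y) → g • x = x)
    (hfrob : FrobeniusQuadratic (K := ℚ) (L := AlgebraicClosure ℚ) N p J)
    (hfin : Finite {x : J // p • x = 0}) (hsupp : Support N p S J)
    (A : ValuationSubring (AlgebraicClosure ℚ)) (hA : A.LiesOverPrime p)
    (J' : Type) [AddCommGroup J'] [Module HeckeAlg J'] (α : J →+ J')
    (hα : ∀ (a : AnemicAlg S) (x : J), α (anemicIncl S a • x) = anemicIncl S a • α x)
    (t : AnemicAlg S) (ht : ∀ (n : ℕ) (y : J'), p ^ n • y = 0 → anemicIncl S t • y = 0)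
    (hπt : π (anemicEval hNS t) ≠ 0)
    (Kr : ℕ → AddSubgroup J)
    (hKr : ∀ (m : ℕ) (x : J), p ^ m • x = 0 → ∀ τ ∈ A.inertiaSubgroupIn ℚ, τ • x - x ∈ Kr m)
    (hmult : ∀ m : ℕ, 1 ≤ m → ∀ x ∈ Kr m, p • x = 0 → α x = 0 →
      ∀ τ ∈ A.inertiaSubgroupIn ℚ, ∀ a : ℕ,
        (∀ ζ : AlgebraicClosure ℚ, ζ ^ p = 1 → τ ζ = ζ ^ a) → τ • x = a • x) :
    ∃ L : Submodule 𝒪 ρ.V,
      (∃ b : Module.Basis (Fin 2) 𝒪 ρ.V, L = 𝒪 ∙ b 0) ∧
      (∀ σ ∈ A.decompositionSubgroup ℚ, ∀ v ∈ L, ρ.ρ σ v ∈ L) ∧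
      (∀ σ ∈ A.inertiaSubgroupIn ℚ, ∀ v : ρ.V, ρ.ρ σ v - v ∈ L) := by
  classical
  -- the determinant is cyclotomic
  have hdet : ρ.DetIsCyclotomic p := by
    refine Fermat.Agent.FrobCompare.detIsCyclotomic_of_frob Fermat.Agent.CMP.Density.frobDensity ρ
      hp.ne_zero hp𝒪 S ?_
    intro ℓ hℓ hℓS P hP σ hσ
    have hℓN : ¬ ℓ ∣ N := fun h => hℓS (hNS ℓ hℓ h)
    have hcp := hcharpoly ℓ hℓ hℓN (by exact_mod_cast hℓS) P hP σ hσ
    rw [Fermat.Agent.BN2.charpoly_eq_of_finrank_two ρ.finrank_eq] at hcp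
    have := congrArg (fun P => Polynomial.coeff P 0) hcp
    simpa [Polynomial.coeff_X, Polynomial.coeff_C] using this
  -- the augmentation submodule of inertia and its saturation
  set W : Submodule 𝒪 ρ.V :=
    Submodule.span 𝒪 {w | ∃ τ ∈ A.inertiaSubgroupIn ℚ, ∃ v, w = ρ.ρ τ v - v} with hW
  have hWD : ∀ σ ∈ A.decompositionSubgroup ℚ, ∀ v ∈ W, ρ.ρ σ v ∈ W := by
    intro σ hσ v hv
    have hle : W ≤ W.comap (ρ.ρ σ) := by
      rw [hW, Submodule.span_le]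
      rintro _ ⟨τ, hτ, v, rfl⟩
      rw [SetLike.mem_coe, Submodule.mem_comap, map_sub]
      refine Submodule.subset_span ⟨σ * τ * σ⁻¹, conj_mem_inertia' hσ hτ, ρ.ρ σ v, ?_⟩
      congr 1
      rw [← Module.End.mul_apply, ← Module.End.mul_apply, ← map_mul, ← map_mul,
        inv_mul_cancel_right]
    exact hle hv
  let L : Submodule 𝒪 ρ.V :=
    { carrier := {v | ∃ c : 𝒪, c ≠ 0 ∧ c • v ∈ W}
      add_mem' := by
        rintro v v' ⟨c, hc, hv⟩ ⟨c', hc', hv'⟩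
        refine ⟨c * c', mul_ne_zero hc hc', ?_⟩
        rw [smul_add]
        refine W.add_mem ?_ ?_
        · rw [mul_comm, mul_smul]
          exact W.smul_mem _ hv
        · rw [mul_smul]
          exact W.smul_mem _ hv'
      zero_mem' := ⟨1, one_ne_zero, by rw [smul_zero]; exact W.zero_mem⟩
      smul_mem' := by
        rintro a v ⟨c, hc, hv⟩
        refine ⟨c, hc, ?_⟩
        rw [smul_comm]
        exact W.smul_mem _ hv }
  have hWL : W ≤ L := fun v hv => ⟨1, one_ne_zero, by rwa [one_smul]⟩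
  have hLsat : ∀ c : 𝒪, c ≠ 0 → ∀ v : ρ.V, c • v ∈ L → v ∈ L := by
    rintro c hc v ⟨c', hc', hv⟩
    exact ⟨c' * c, mul_ne_zero hc' hc, by rwa [mul_smul]⟩
  have hIL : ∀ σ ∈ A.inertiaSubgroupIn ℚ, ∀ v : ρ.V, ρ.ρ σ v - v ∈ L := fun σ hσ v =>
    hWL (Submodule.subset_span ⟨σ, hσ, v, rfl⟩)
  -- `L ≠ 0`
  have hL0 : L ≠ ⊥ := by
    intro h
    obtain ⟨σ, hσ, hu⟩ := Fermat.Agent.FlatOrd.Cyc.exists_isUnit_det_sub_one ρ hp hp2 hdet A hA
    have h1 : ρ.ρ σ = 1 := by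
      refine LinearMap.ext fun v => ?_
      have h2 := hIL σ hσ v
      rw [h, Submodule.mem_bot, sub_eq_zero] at h2
      exact h2
    rw [h1, map_one, sub_self] at hu
    exact not_isUnit_zero hu
  -- `L ≠ V`
  have hL1 : L ≠ ⊤ := by
    intro h
    let b := stdBasis ρ
    obtain ⟨c, hc0, hc⟩ : ∃ c : 𝒪, c ≠ 0 ∧ ∀ v : ρ.V, c • v ∈ W := by
      have h0 : b 0 ∈ L := by rw [h]; trivial
      have h1 : b 1 ∈ L := by rw [h]; trivial
      obtain ⟨c0, hc0, hv0⟩ := h0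
      obtain ⟨c1, hc1, hv1⟩ := h1
      refine ⟨c0 * c1, mul_ne_zero hc0 hc1, fun v => ?_⟩
      rw [← b.sum_repr v, Fin.sum_univ_two, smul_add]
      refine W.add_mem ?_ ?_
      · rw [smul_comm, mul_comm c0, mul_smul]
        exact W.smul_mem _ (W.smul_mem _ hv0)
      · rw [smul_comm, mul_smul]
        exact W.smul_mem _ (W.smul_mem _ hv1)
    obtain ⟨ϖ, hϖ⟩ := IsDiscreteValuationRing.exists_irreducible 𝒪
    set s := c * π (anemicEval hNS t) with hs
    have hs0 : s ≠ 0 := mul_ne_zero hc0 hπt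
    have hfinI : Finite (𝒪 ⧸ Ideal.span {ϖ * s}) :=
      finite_quotient_of_ne_zero (mul_ne_zero hϖ.ne_zero hs0)
    have hloc : IsLocalHom (algebraMap 𝒪 𝒪) := ⟨fun a ha => ha⟩
    obtain ⟨n, 𝔞, hle, hfin𝔞, K, f, hf1, hf2, hf3, hf4⟩ := exists_family (𝒪 := 𝒪) (T := 𝒪)
      inferInstance hp hp2 hp𝒪 hpS hNS π ρ hcharpoly hirr J hsmooth hfrob hfin hsupp
      (Ideal.span {ϖ * s})
    have h𝔞0 : 𝔞 ≠ ⊥ := by
      rintro rfl
      have h1 : Finite 𝒪 := Finite.of_equiv _ (RingEquiv.quotientBot 𝒪).toEquiv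
      have h2 := infinite_of_charZero 𝒪
      exact not_finite 𝒪
    obtain ⟨r, hr⟩ := IsDiscreteValuationRing.ideal_eq_span_pow_irreducible h𝔞0 hϖ
    have hdvd : ϖ * s ∣ ϖ ^ r := by
      rw [← Ideal.mem_span_singleton]
      apply hle
      rw [hr]
      exact Ideal.mem_span_singleton_self _
    obtain ⟨r', rfl⟩ : ∃ r', r = r' + 1 := by
      cases r with
      | zero =>
        exfalso
        rw [pow_zero] at hdvd
        exact hϖ.not_isUnit (isUnit_of_dvd_one (dvd_of_mul_right_dvd hdvd))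
      | succ r' => exact ⟨r', rfl⟩
    obtain ⟨d, hd⟩ : s ∣ ϖ ^ r' := by
      rw [pow_succ', mul_dvd_mul_iff_left hϖ.ne_zero] at hdvd
      exact hdvd
    obtain ⟨p', hp'⟩ : ϖ ∣ (p : 𝒪) := by
      rw [← Ideal.mem_span_singleton, ← hϖ.maximalIdeal_eq]
      exact hp𝒪
    -- the maps `f k` send `W` to `Kr (n + 1)`
    have hWK : ∀ k, ∀ w ∈ W, f k w ∈ Kr (n + 1) := by
      intro k w hw
      have hgen : ∀ a : 𝒪, f k (a • w) ∈ Kr (n + 1) := by
        induction hw using Submodule.span_induction with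
        | mem w hw =>
          obtain ⟨τ, hτ, v, rfl⟩ := hw
          intro a
          rw [smul_sub, ← map_smul, map_sub, hf2]
          refine hKr (n + 1) _ ?_ τ hτ
          rw [pow_succ', mul_smul, hf1, smul_zero]
        | zero => intro a; rw [smul_zero, map_zero]; exact zero_mem _
        | add x y _ _ hx hy => intro a; rw [smul_add, map_add]; exact add_mem (hx a) (hy a)
        | smul b x _ hx => intro a; rw [smul_smul]; exact hx _
      have := hgen 1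
      rwa [one_smul] at this
    -- multiplicativity
    have hkey : ∀ τ ∈ A.inertiaSubgroupIn ℚ, ∀ a : ℕ,
        (∀ ζ : AlgebraicClosure ℚ, ζ ^ p = 1 → τ ζ = ζ ^ a) →
        ∀ u : ρ.V, ∃ w : ρ.V, ρ.ρ τ u - (a : 𝒪) • u = ϖ • w := by
      intro τ hτ a ha u
      set v : ρ.V := ϖ ^ r' • u with hv
      have hv1 : v = c • (π (anemicEval hNS t) • (d • u)) := by
        rw [hv, hd, hs, mul_smul, mul_smul]
      have hv2 : v = π (anemicEval hNS t) • (c • (d • u)) := by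
        rw [hv1, smul_comm]
      have hmem : ρ.ρ τ v - (a : 𝒪) • v ∈ 𝔞 • (⊤ : Submodule 𝒪 ρ.V) := by
        rw [← hf4]
        intro k
        have h1 : f k v ∈ Kr (n + 1) := by
          rw [hv1]
          exact hWK k _ (hc _)
        have h2 : p • f k v = 0 := by
          rw [← map_nsmul]
          refine (hf4 _).mpr ?_ k
          rw [← Nat.cast_smul_eq_nsmul 𝒪, hv, smul_smul, hp', hr]
          have : ϖ * p' * ϖ ^ r' = p' * ϖ ^ (r' + 1) := by ring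
          rw [this, mul_smul, smul_comm]
          exact Submodule.smul_mem_smul (Ideal.mem_span_singleton_self _) Submodule.mem_top
        have h3 : α (f k v) = 0 := by
          rw [hv2, hf3, hα]
          refine ht n _ ?_
          rw [← map_nsmul, hf1, map_zero]
        have h4 := hmult (n + 1) (Nat.le_add_left 1 n) _ h1 h2 h3 τ hτ a ha
        rw [map_sub, hf2, h4, Nat.cast_smul_eq_nsmul, map_nsmul, sub_self]
      rw [hr, Submodule.ideal_span_singleton_smul] at hmem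
      obtain ⟨w, -, hw⟩ := Submodule.mem_smul_pointwise_iff_exists _ _ _ |>.mp hmem
      refine ⟨w, ?_⟩
      have h5 : ϖ ^ r' • (ρ.ρ τ u - (a : 𝒪) • u) = ϖ ^ r' • (ϖ • w) := by
        rw [smul_smul, ← pow_succ, hw, hv, smul_sub, map_smul, smul_comm (a : 𝒪)]
      exact smul_right_injective ρ.V (pow_ne_zero r' hϖ.ne_zero) h5
    obtain ⟨τ, hτ, a, ha, hadvd⟩ :=
      Fermat.Agent.FlatOrd.Cyc.exists_inertia_cyclotomic hp hp2 A hA
    have h1 := det_sub_sq_mem (stdBasis ρ) ϖ (a : 𝒪) (ρ.ρ τ) (hkey τ hτ a ha)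
    rw [← hϖ.maximalIdeal_eq] at h1
    have h2 : LinearMap.det (ρ.ρ τ) - (a : 𝒪) ∈ maximalIdeal 𝒪 := by
      have h3 := hdet.2 1 τ a (by rwa [pow_one])
      rw [pow_one] at h3
      exact (Ideal.span_singleton_le_iff_mem _).mpr hp𝒪 h3
    have hunit : LinearMap.det (ρ.ρ τ) ∉ maximalIdeal 𝒪 := by
      rw [IsLocalRing.mem_maximalIdeal, mem_nonunits_iff, not_not]
      refine IsUnit.of_mul_eq_one (LinearMap.det (ρ.ρ τ⁻¹)) ?_
      rw [← map_mul, ← map_mul, mul_inv_cancel, map_one, map_one]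
    have ha' : (a : 𝒪) ∉ maximalIdeal 𝒪 := by
      intro h4
      apply hunit
      have := Ideal.add_mem _ h2 h4
      rwa [sub_add_cancel] at this
    have h3 : (a : 𝒪) * ((a : 𝒪) - 1) ∈ maximalIdeal 𝒪 := by
      have := Ideal.sub_mem _ h2 h1
      have e : LinearMap.det (ρ.ρ τ) - (a : 𝒪) - (LinearMap.det (ρ.ρ τ) - (a : 𝒪) ^ 2) =
        (a : 𝒪) * ((a : 𝒪) - 1) := by ring
      rwa [e] at this
    have h4 : (a : 𝒪) - 1 ∈ maximalIdeal 𝒪 :=
      ((maximalIdeal.isMaximal 𝒪).isPrime.mem_or_mem h3).resolve_left ha'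
    have hcop : IsCoprime ((a : ℤ) - 1) (p : ℤ) := by
      rw [Int.isCoprime_iff_gcd_eq_one]
      rcases (Nat.dvd_prime hp).mp (Int.gcd_dvd_natAbs_right ((a : ℤ) - 1) (p : ℤ)) with h | h
      · exact h
      · exfalso
        apply hadvd
        have := Int.gcd_dvd_left ((a : ℤ) - 1) (p : ℤ)
        rwa [h] at this
    obtain ⟨x, y, hxy⟩ := hcop
    have hxyT : (x : 𝒪) * ((a : 𝒪) - 1) + y * p = 1 := by
      exact_mod_cast congrArg (Int.cast (R := 𝒪)) hxy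
    have h5 : (1 : 𝒪) ∈ maximalIdeal 𝒪 := by
      rw [← hxyT]
      exact Ideal.add_mem _ (Ideal.mul_mem_left _ _ h4) (Ideal.mul_mem_left _ _ hp𝒪)
    exact (Ideal.ne_top_iff_one _).mp (maximalIdeal.isMaximal 𝒪).ne_top h5
  refine ⟨L, exists_basis_of_saturated ρ.finrank_eq L hLsat hL0 hL1, ?_, hIL⟩
  rintro σ hσ v ⟨c, hc, hv⟩
  exact ⟨c, hc, by rw [← map_smul]; exact hWD σ hσ _ hv⟩

/-- **`p`-new and multiplicative implies ordinary**, with the invariants given by maps. -/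
theorem isOrdinaryAt_of_new [Finite (ResidueField 𝒪)] [CharZero 𝒪]
    (hp : p.Prime) (hp2 : p ≠ 2) (hp𝒪 : (p : 𝒪) ∈ maximalIdeal 𝒪)
    (hpS : p ∈ S) (hNS : ∀ q : ℕ, q.Prime → q ∣ N → q ∈ S)
    (π : CuspForm.heckeAlgebra N 2 (↑S : Set ℕ) →+* 𝒪) (ρ : GaloisRepAdic 𝒪)
    (hcharpoly : ∀ (ℓ : ℕ) (hℓ : ℓ.Prime) (hℓN : ¬ ℓ ∣ N) (hℓS : ℓ ∉ (↑S : Set ℕ)),
      ∀ A : ValuationSubring (AlgebraicClosure ℚ), A.LiesOverPrime ℓ →
        ∀ σ : AlgebraicClosure ℚ ≃ₐ[ℚ] AlgebraicClosure ℚ, A.IsFrobeniusAt σ ℓ →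
          LinearMap.charpoly (ρ.ρ σ) = Polynomial.X ^ 2 -
            Polynomial.C (π (CuspForm.heckeAlgebra.T hℓ hℓN hℓS)) * Polynomial.X +
            Polynomial.C ((ℓ : 𝒪)))
    (hirr : ρ.residual.IsAbsolutelyIrreducible)
    (J : Type) [AddCommGroup J] [Module HeckeAlg J] [DistribMulAction GQ J]
    [SMulCommClass GQ HeckeAlg J]
    (hsmooth : ∀ x : J, ∃ L : IntermediateField ℚ (AlgebraicClosure ℚ), FiniteDimensional ℚ L ∧
      ∀ g : GQ, (∀ y ∈ L, g y = y) → g • x = x)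
    (hfrob : FrobeniusQuadratic (K := ℚ) (L := AlgebraicClosure ℚ) N p J)
    (hfin : Finite {x : J // p • x = 0}) (hsupp : Support N p S J)
    (J' : Type) [AddCommGroup J'] [Module HeckeAlg J'] (α : J →+ J')
    (hα : ∀ (a : AnemicAlg S) (x : J), α (anemicIncl S a • x) = anemicIncl S a • α x)
    (t : AnemicAlg S) (ht : ∀ (n : ℕ) (y : J'), p ^ n • y = 0 → anemicIncl S t • y = 0)
    (hπt : π (anemicEval hNS t) ≠ 0)
    (hinput : ∀ A : ValuationSubring (AlgebraicClosure ℚ), A.LiesOverPrime p →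
      ∃ (Z : ℕ → Type) (_ : ∀ m, AddCommGroup (Z m))
        (r : ∀ m : ℕ, (nsmulAddMonoidHom (α := J) (p ^ m)).ker →+ Z m),
        (∀ (m : ℕ) (x y : (nsmulAddMonoidHom (α := J) (p ^ m)).ker), ∀ τ ∈ A.inertiaSubgroupIn ℚ,
          (y : J) = τ • (x : J) → r m y = r m x) ∧
        ∀ m : ℕ, 1 ≤ m → ∀ x : (nsmulAddMonoidHom (α := J) (p ^ m)).ker, p • (x : J) = 0 →
          r m x = 0 → α x = 0 → ∀ τ ∈ A.inertiaSubgroupIn ℚ, ∀ a : ℕ,
          (∀ ζ : AlgebraicClosure ℚ, ζ ^ p = 1 → τ ζ = ζ ^ a) → τ • (x : J) = a • (x : J)) :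
    ρ.IsOrdinaryAt p := by
  intro A hA
  obtain ⟨Z, _, r, hr1, hr2⟩ := hinput A hA
  refine exists_line_of_new hp hp2 hp𝒪 hpS hNS π ρ hcharpoly hirr J hsmooth hfrob hfin hsupp A hA
    J' α hα t ht hπt (fun m => (r m).ker.map (AddSubgroup.subtype _)) ?_ ?_
  · intro m x hx τ hτ
    have hx' : x ∈ (nsmulAddMonoidHom (α := J) (p ^ m)).ker := hx
    have hy' : τ • x ∈ (nsmulAddMonoidHom (α := J) (p ^ m)).ker := by
      show p ^ m • (τ • x) = 0
      rw [← gal_nsmul, hx, smul_zero]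
    refine ⟨⟨τ • x, hy'⟩ - ⟨x, hx'⟩, ?_, rfl⟩
    rw [SetLike.mem_coe, AddMonoidHom.mem_ker, map_sub, hr1 m ⟨x, hx'⟩ ⟨τ • x, hy'⟩ τ hτ rfl,
      sub_self]
  · rintro m hm _ ⟨x, hx, rfl⟩ hpx hαx τ hτ a ha
    exact hr2 m hm x hpx hx hαx τ hτ a ha

end Main

end

end Fermat.FlatMatch
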