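import Mathlib

set_option autoImplicit false

/-!
# Chevalley's theorem for complete local rings with finite residue field
-/

namespace Fermat.FlatMatch

open IsLocalRing

variable {T : Type*} [CommRing T] [IsLocalRing T] [IsNoetherianRing T]

theorem finite_quotient_pow [Finite (ResidueField T)] (n : ℕ) :
    Finite (T ⧸ (maximalIdeal T) ^ n) := by
  have : Finite (T ⧸ maximalIdeal T) := inferInstanceAs (Finite (ResidueField T))
  exact Ideal.finite_quotient_pow (IsNoetherian.noetherian (maximalIdeal T)) n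

omit [IsNoetherianRing T] in
theorem exists_maximalIdeal_pow_le (I : Ideal T) [Finite (T ⧸ I)] :
    ∃ n, maximalIdeal T ^ n ≤ I := by
  by_cases hI : I = ⊤
  · exact ⟨0, by rw [hI]; exact le_top⟩
  have : Nontrivial (T ⧸ I) := Ideal.Quotient.nontrivial_iff.mpr hI
  have hsurj := Ideal.Quotient.mk_surjective (I := I)
  have : IsLocalRing (T ⧸ I) := IsLocalRing.of_surjective' (Ideal.Quotient.mk I) hsurj
  have : IsArtinianRing (T ⧸ I) := inferInstance
  obtain ⟨n, hn⟩ := IsArtinianRing.isNilpotent_jacobson_bot (R := T ⧸ I)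
  rw [IsLocalRing.jacobson_eq_maximalIdeal _ bot_ne_top] at hn
  refine ⟨n, fun x hx => ?_⟩
  have h1 : (maximalIdeal T).map (Ideal.Quotient.mk I) ≤ maximalIdeal (T ⧸ I) := by
    rw [Ideal.map_le_iff_le_comap]
    intro y hy
    rw [Ideal.mem_comap]
    have : IsLocalHom (Ideal.Quotient.mk I) := IsLocalHom.of_surjective _ hsurj
    exact map_nonunit _ y hy
  have h2 : Ideal.Quotient.mk I x ∈ maximalIdeal (T ⧸ I) ^ n := by
    refine Ideal.pow_right_mono h1 n ?_
    rw [← Ideal.map_pow]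
    exact Ideal.mem_map_of_mem _ hx
  rw [hn] at h2
  exact Ideal.Quotient.eq_zero_iff_mem.mp h2

theorem mem_of_forall_mem_sup_pow (a : Ideal T) (x : T) (h : ∀ k, x ∈ a ⊔ maximalIdeal T ^ k) :
    x ∈ a := by
  by_cases ha : a = ⊤
  · rw [ha]; trivial
  have : Nontrivial (T ⧸ a) := Ideal.Quotient.nontrivial_iff.mpr ha
  have hsurj := Ideal.Quotient.mk_surjective (I := a)
  have hloc : IsLocalRing (T ⧸ a) := IsLocalRing.of_surjective' (Ideal.Quotient.mk a) hsurj
  have h1 : (maximalIdeal T).map (Ideal.Quotient.mk a) ≤ maximalIdeal (T ⧸ a) := by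
    rw [Ideal.map_le_iff_le_comap]
    intro y hy
    rw [Ideal.mem_comap]
    have : IsLocalHom (Ideal.Quotient.mk a) := IsLocalHom.of_surjective _ hsurj
    exact map_nonunit _ y hy
  have h2 : Ideal.Quotient.mk a x ∈ (⨅ k : ℕ, maximalIdeal (T ⧸ a) ^ k : Ideal (T ⧸ a)) := by
    rw [Submodule.mem_iInf]
    intro k
    obtain ⟨y, hy, z, hz, rfl⟩ := Submodule.mem_sup.mp (h k)
    rw [map_add, Ideal.Quotient.eq_zero_iff_mem.mpr hy, zero_add]
    refine Ideal.pow_right_mono h1 k ?_
    rw [← Ideal.map_pow]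
    exact Ideal.mem_map_of_mem _ hz
  rw [Ideal.iInf_pow_eq_bot_of_isLocalRing _ (maximalIdeal.isMaximal _).ne_top] at h2
  exact Ideal.Quotient.eq_zero_iff_mem.mp h2

/-- **Chevalley's theorem**. -/
theorem exists_le_of_iInf_eq_bot [IsAdicComplete (maximalIdeal T) T] [Finite (ResidueField T)]
    (a : ℕ → Ideal T) (ha : Antitone a) (h0 : ∀ x, (∀ m, x ∈ a m) → x = 0) (I : Ideal T)
    [Finite (T ⧸ I)] : ∃ m, a m ≤ I := by
  by_contra hcon
  push Not at hcon
  have hex : ∀ m, ∃ x ∈ a m, x ∉ I := fun m => by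
    have := hcon m
    rw [SetLike.not_le_iff_exists] at this
    exact this
  choose α hα hαI using hex
  let U : Ultrafilter ℕ := Filter.hyperfilter ℕ
  have hfin : ∀ k, Finite (T ⧸ maximalIdeal T ^ k) := finite_quotient_pow
  have hβ : ∀ k, ∃ b : T, ∀ᶠ m in (U : Filter ℕ), α m - b ∈ maximalIdeal T ^ k := by
    intro k
    have := hfin k
    obtain ⟨c, hc⟩ := (U.map (fun m => Ideal.Quotient.mk (maximalIdeal T ^ k) (α m))).eq_pure_of_finite
    obtain ⟨b, rfl⟩ := Ideal.Quotient.mk_surjective c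
    refine ⟨b, ?_⟩
    have h1 : {Ideal.Quotient.mk (maximalIdeal T ^ k) b} ∈
        (U.map (fun m => Ideal.Quotient.mk (maximalIdeal T ^ k) (α m))) := by
      rw [hc]
      exact Ultrafilter.mem_pure.mpr rfl
    rw [Ultrafilter.mem_map] at h1
    filter_upwards [h1] with m hm
    exact Ideal.Quotient.eq.mp hm
  choose b hb using hβ
  have hcompat : ∀ {m n : ℕ}, m ≤ n → b m ≡ b n [SMOD maximalIdeal T ^ m • (⊤ : Submodule T T)] := by
    intro m n hmn
    obtain ⟨j, h1, h2⟩ := ((hb m).and (hb n)).exists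
    rw [SModEq.sub_mem, smul_eq_mul, Ideal.mul_top]
    have h3 := Ideal.pow_le_pow_right hmn h2
    have : b m - b n = (α j - b n) - (α j - b m) := by ring
    rw [this]
    exact Ideal.sub_mem _ h3 h1
  obtain ⟨β, hβ⟩ := IsPrecomplete.prec' (I := maximalIdeal T) b hcompat
  have hβ' : ∀ k, b k - β ∈ maximalIdeal T ^ k := by
    intro k
    have := hβ k
    rwa [SModEq.sub_mem, smul_eq_mul, Ideal.mul_top] at this
  have hβ0 : β = 0 := by
    refine h0 β fun m => mem_of_forall_mem_sup_pow (a m) β fun k => ?_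
    have h1 : ∀ᶠ j in (U : Filter ℕ), m ≤ j := by
      have : (U : Filter ℕ) ≤ Filter.cofinite := Filter.hyperfilter_le_cofinite
      rw [Nat.cofinite_eq_atTop] at this
      exact this (Filter.eventually_ge_atTop m)
    obtain ⟨j, hj1, hj2⟩ := (h1.and (hb k)).exists
    have h2 : β = α j + -((α j - b k) + (b k - β)) := by ring
    rw [h2]
    refine Ideal.add_mem _ (Ideal.mem_sup_left (ha hj1 (hα j))) (Ideal.mem_sup_right ?_)
    exact Ideal.neg_mem_iff _ |>.mpr (Ideal.add_mem _ hj2 (hβ' k))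
  obtain ⟨n, hn⟩ := exists_maximalIdeal_pow_le I
  obtain ⟨j, hj⟩ := (hb n).exists
  apply hαI j
  apply hn
  have h3 := hβ' n
  rw [hβ0, sub_zero] at h3
  have : α j = (α j - b n) + b n := by ring
  rw [this]
  exact Ideal.add_mem _ hj h3

end Fermat.FlatMatch
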