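import Fermat.Agent.FlatMatch.Relation
import Fermat.Agent.FlatModel.Adic

set_option autoImplicit false

/-!
# Matching the finite levels of a Galois representation with a system of finite modules
-/

namespace Fermat.FlatMatch

open IsLocalRing Fermat.FlatModel

noncomputable section

variable {T : Type} [CommRing T]

section Pi

variable {ι : Type} {X : ι → Type} [∀ i, AddCommGroup (X i)] [∀ i, Module T (X i)]
  {G : Type} [Group G]

/-- The diagonal action on a product. -/
def piRep (ξ : ∀ i, G →* Module.End T (X i)) : G →* Module.End T (∀ i, X i) where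
  toFun g := LinearMap.pi fun i => (ξ i g) ∘ₗ LinearMap.proj i
  map_one' := by
    refine LinearMap.ext fun f => funext fun i => ?_
    simp
  map_mul' g h := by
    refine LinearMap.ext fun f => funext fun i => ?_
    simp

@[simp] theorem piRep_apply (ξ : ∀ i, G →* Module.End T (X i)) (g : G) (f : ∀ i, X i) (i : ι) :
    piRep ξ g f i = ξ i g (f i) := rfl

theorem mem_annihilator_pi (α : T) :
    α ∈ Module.annihilator T (∀ i, X i) ↔ ∀ i, α ∈ Module.annihilator T (X i) := by
  classical
  simp only [Module.mem_annihilator]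
  constructor
  · intro h i x
    have := congrFun (h (Pi.single i x)) i
    rwa [Pi.smul_apply, Pi.single_eq_same] at this
  · intro h f
    funext i
    exact h i (f i)

end Pi

/-- The additive action underlying a linear one. -/
def addAct {X : Type} [AddCommGroup X] [Module T X] (ξ : GQ →* Module.End T X) :
    GQ →* AddMonoid.End X where
  toFun g := (ξ g).toAddMonoidHom
  map_one' := by rw [map_one]; rfl
  map_mul' g h := by rw [map_mul]; rfl

@[simp] theorem addAct_apply {X : Type} [AddCommGroup X] [Module T X] (ξ : GQ →* Module.End T X)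
    (g : GQ) (x : X) : addAct ξ g x = ξ g x := rfl

variable [IsLocalRing T]

/-- The trivialisation on an open subgroup. -/
def OpenTrivial {X : Type} [AddCommGroup X] [Module T X] (ξ : GQ →* Module.End T X) : Prop :=
  ∃ L : IntermediateField ℚ (AlgebraicClosure ℚ), FiniteDimensional ℚ L ∧
      ∀ σ : GQ, (∀ x ∈ L, σ x = x) → ξ σ = 1

/-- The Cayley–Hamilton relation at all Frobenius elements outside `S`. -/
def FrobRel (ρ : GaloisRepAdic T) (S : Finset ℕ) {X : Type} [AddCommGroup X] [Module T X]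
    (ξ : GQ →* Module.End T X) : Prop :=
  ∀ ℓ : ℕ, ℓ.Prime → ℓ ∉ S → ∀ A : ValuationSubring (AlgebraicClosure ℚ),
      A.LiesOverPrime ℓ → ∀ σ : GQ, A.IsFrobeniusAt σ ℓ →
        ξ σ + LinearMap.det (ρ.ρ σ) • ξ σ⁻¹ = LinearMap.trace T ρ.V (ρ.ρ σ) • 1

omit [IsLocalRing T] in
theorem openTrivial_pi {n : ℕ} {X : Fin n → Type} [∀ i, AddCommGroup (X i)]
    [∀ i, Module T (X i)] {ξ : ∀ i, GQ →* Module.End T (X i)} (h : ∀ i, OpenTrivial (ξ i)) :
    OpenTrivial (piRep ξ) := by
  choose L hL hL2 using h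
  refine ⟨⨆ i, L i, IntermediateField.finiteDimensional_iSup_of_finite, fun σ hσ => ?_⟩
  refine LinearMap.ext fun f => funext fun i => ?_
  rw [piRep_apply, hL2 i σ fun x hx => hσ x (le_iSup L i hx)]
  rfl

theorem frobRel_pi {n : ℕ} {X : Fin n → Type} [∀ i, AddCommGroup (X i)]
    [∀ i, Module T (X i)] {ξ : ∀ i, GQ →* Module.End T (X i)} {ρ : GaloisRepAdic T}
    {S : Finset ℕ} (h : ∀ i, FrobRel ρ S (ξ i)) : FrobRel ρ S (piRep ξ) := by
  intro ℓ hℓ hℓS A hA σ hσ
  refine LinearMap.ext fun f => funext fun i => ?_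
  have := LinearMap.congr_fun (h i ℓ hℓ hℓS A hA σ hσ) (f i)
  exact this

/-- A basis of the representation space. -/
def stdBasis (ρ : GaloisRepAdic T) : Module.Basis (Fin 2) T ρ.V :=
  Module.finBasisOfFinrankEq T ρ.V ρ.finrank_eq

/-- One finite module: the quotient by the annihilator embeds in a power of the module. -/
theorem exists_embedding (ρ : GaloisRepAdic T) (h2 : IsUnit (2 : T))
    (hspan : Submodule.span T (Set.range ρ.ρ) = ⊤) (S : Finset ℕ) {X : Type} [AddCommGroup X]
    [Module T X] [Finite X] (ξ : GQ →* Module.End T X) (hsm : OpenTrivial ξ)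
    (hfrob : FrobRel ρ S ξ) :
    ∃ i : (ρ.V ⧸ (Module.annihilator T X • (⊤ : Submodule T ρ.V))) →+ (X → X),
      Function.Injective i ∧ ∀ g x w, i (levelAct ρ (Module.annihilator T X) g x) w =
        ξ g (i x w) := by
  obtain ⟨Ψ, hΨ⟩ := exists_algHom (stdBasis ρ) h2 (rel_of_frobenius ρ ξ hsm S hfrob) hspan
  have hle : Module.annihilator T X • (⊤ : Submodule T ρ.V) ≤
      LinearMap.ker (embPi (stdBasis ρ) Ψ) := by
    rw [Submodule.smul_le]
    intro α hα v _
    rw [LinearMap.mem_ker, map_smul]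
    funext w
    exact Module.mem_annihilator.mp hα _
  refine ⟨((Module.annihilator T X • (⊤ : Submodule T ρ.V)).liftQ (embPi (stdBasis ρ) Ψ)
    hle).toAddMonoidHom, ?_, ?_⟩
  · rw [injective_iff_map_eq_zero]
    intro x hx
    obtain ⟨v, rfl⟩ := Submodule.Quotient.mk_surjective _ x
    rw [Submodule.Quotient.mk_eq_zero]
    exact mem_smul_top_of_embPi_eq_zero (stdBasis ρ) Ψ hx
  · intro g x w
    obtain ⟨v, rfl⟩ := Submodule.Quotient.mk_surjective _ x
    exact embPi_equivariant (stdBasis ρ) Ψ hΨ g v w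

/-- **Matching**: every finite level of `ρ` is a quotient of some `V / 𝔞 V` embedding
equivariantly in a power of a finite product of the `X i`. -/
theorem exists_matching [IsNoetherianRing T] [IsAdicComplete (maximalIdeal T) T]
    [Finite (ResidueField T)] (ρ : GaloisRepAdic T) (h2 : IsUnit (2 : T))
    (hspan : Submodule.span T (Set.range ρ.ρ) = ⊤) (S : Finset ℕ)
    {X : ℕ → Type} [∀ m, AddCommGroup (X m)] [∀ m, Module T (X m)] [∀ m, Finite (X m)]
    (ξ : ∀ m, GQ →* Module.End T (X m)) (hsm : ∀ m, OpenTrivial (ξ m))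
    (hfrob : ∀ m, FrobRel ρ S (ξ m))
    (hsupp : ∀ α : T, (∀ m, α ∈ Module.annihilator T (X m)) → α = 0)
    (I : Ideal T) [Finite (T ⧸ I)] :
    ∃ (m : ℕ) (𝔞 : Ideal T), 𝔞 ≤ I ∧ Finite (T ⧸ 𝔞) ∧
      ∃ i : (ρ.V ⧸ (𝔞 • (⊤ : Submodule T ρ.V))) →+
          ((∀ j : Fin m, X j) → (∀ j : Fin m, X j)),
      Function.Injective i ∧ ∀ g x w, i (levelAct ρ 𝔞 g x) w =
        piRep (fun j : Fin m => ξ j) g (i x w) := by
  let a : ℕ → Ideal T := fun m => Module.annihilator T (∀ j : Fin m, X j)
  have ha : Antitone a := by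
    intro m n hmn α hα
    rw [mem_annihilator_pi] at hα ⊢
    intro j
    exact hα ⟨j, lt_of_lt_of_le j.2 hmn⟩
  have h0 : ∀ x, (∀ m, x ∈ a m) → x = 0 := by
    intro x hx
    refine hsupp x fun m => ?_
    have := hx (m + 1)
    rw [mem_annihilator_pi] at this
    exact this ⟨m, Nat.lt_succ_self m⟩
  obtain ⟨m, hm⟩ := exists_le_of_iInf_eq_bot a ha h0 I
  refine ⟨m, a m, hm, finite_quotient_annihilator T _, ?_⟩
  exact exists_embedding ρ h2 hspan S (piRep (fun j : Fin m => ξ j))
    (openTrivial_pi fun j => hsm j) (frobRel_pi fun j => hfrob j)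

omit [IsLocalRing T] in
theorem hasFlatModel_pi (p : ℕ) {n : ℕ} {X : Fin n → Type} [∀ i, AddCommGroup (X i)]
    [∀ i, Module T (X i)] [∀ i, Finite (X i)] (ξ : ∀ i, GQ →* Module.End T (X i))
    (h : ∀ i, HasFlatModel p (addAct (ξ i))) : HasFlatModel p (addAct (piRep ξ)) := by
  induction n with
  | zero => exact hasFlatModel_of_subsingleton
  | succ n ih =>
    have h1 := ih (fun i => ξ i.succ) (fun i => h i.succ)
    have h2 := (h 0).prod h1
    refine h2.of_surjective
      ({ toFun := fun x => Fin.cons x.1 x.2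
         map_zero' := by
          funext i
          refine Fin.cases ?_ (fun i => ?_) i <;> simp
         map_add' := fun x y => by
          funext i
          refine Fin.cases ?_ (fun i => ?_) i <;> simp } :
        X 0 × (∀ i : Fin n, X i.succ) →+ (∀ i, X i)) ?_ ?_
    · intro f
      exact ⟨(f 0, fun i => f i.succ), Fin.cons_self_tail f⟩
    · intro σ x
      funext i
      refine Fin.cases ?_ (fun i => ?_) i <;> simp

/-- **Flatness by matching.** -/
theorem isFlatAt_of_matching [IsNoetherianRing T] [IsAdicComplete (maximalIdeal T) T]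
    [Finite (ResidueField T)] (ρ : GaloisRepAdic T) (h2 : IsUnit (2 : T))
    (hspan : Submodule.span T (Set.range ρ.ρ) = ⊤) (S : Finset ℕ)
    {X : ℕ → Type} [∀ m, AddCommGroup (X m)] [∀ m, Module T (X m)] [∀ m, Finite (X m)]
    (ξ : ∀ m, GQ →* Module.End T (X m)) (hsm : ∀ m, OpenTrivial (ξ m))
    (hfrob : ∀ m, FrobRel ρ S (ξ m))
    (hsupp : ∀ α : T, (∀ m, α ∈ Module.annihilator T (X m)) → α = 0)
    (p : ℕ) (hflat : ∀ m, HasFlatModel p (addAct (ξ m))) : ρ.IsFlatAt p := by
  rw [isFlatAt_iff]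
  refine ⟨inferInstance, fun I hI => ?_⟩
  obtain ⟨m, 𝔞, hle, hfin, i, hi, hact⟩ := exists_matching ρ h2 hspan S ξ hsm hfrob hsupp I
  have hflat' : HasFlatModel p (addAct (piRep (fun j : Fin m => ξ j))) :=
    hasFlatModel_pi p _ fun j => hflat j
  have hflat2 := hflat'.pi (∀ j : Fin m, X j)
  have hflat3 : HasFlatModel p (levelAct ρ 𝔞) := by
    refine hflat2.of_injective i hi fun σ x => ?_
    funext w
    exact hact σ x w
  have hfinq : Finite (ρ.V ⧸ (𝔞 • (⊤ : Submodule T ρ.V))) := Finite.of_injective i hi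
  have hle2 : 𝔞 • (⊤ : Submodule T ρ.V) ≤ I • (⊤ : Submodule T ρ.V) :=
    Submodule.smul_mono_left hle
  refine hflat3.of_surjective (Submodule.factor hle2).toAddMonoidHom
    (Submodule.factor_surjective hle2) ?_
  intro σ x
  obtain ⟨v, rfl⟩ := Submodule.Quotient.mk_surjective _ x
  rfl

end

end Fermat.FlatMatch
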