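import Mathlib
import Fermat.Agent.FlatMatch.Tensor

set_option autoImplicit false

/-!
# Character modules of finite modules, and coinduced modules
-/

namespace Fermat.FlatMatch

open IsLocalRing Fermat.FlatModel
open scoped TensorProduct

noncomputable section

/-! ## Double duality for finite groups -/

theorem charExt {A : Type} [AddCommGroup A] {c c' : CharacterModule A} (h : ∀ x, c x = c' x) :
    c = c' := CharacterModule.ext A h

/-- The embedding of `ℚ/ℤ` in the complex units. -/
def charToCircle : AddChar (AddCircle (1 : ℚ)) ℂ where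
  toFun x := ((AddCircle.toCircle (T := (1 : ℝ)) (QuotientAddGroup.map
    (AddSubgroup.zmultiples (1 : ℚ)) (AddSubgroup.zmultiples (1 : ℝ)) (Rat.castHom ℝ).toAddMonoidHom (by
      rintro _ ⟨n, rfl⟩
      exact ⟨n, by simp⟩) x) : Circle) : ℂ)
  map_zero_eq_one' := by
    rw [map_zero, AddCircle.toCircle_zero]; rfl
  map_add_eq_mul' x y := by
    rw [map_add, AddCircle.toCircle_add]; rfl

theorem charToCircle_injective : Function.Injective charToCircle := by
  intro x y h
  have h1 := AddCircle.injective_toCircle (one_ne_zero (α := ℝ)) (Circle.coe_injective h)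
  rw [← sub_eq_zero, ← map_sub] at h1
  rw [← sub_eq_zero]
  obtain ⟨q, hq⟩ := QuotientAddGroup.mk_surjective (x - y)
  rw [← hq] at h1 ⊢
  have h2 : ((q : ℝ) : AddCircle (1 : ℝ)) = 0 := h1
  rw [AddCircle.coe_eq_zero_iff] at h2
  obtain ⟨n, hn⟩ := h2
  have h3 : (n : ℚ) = q := by
    have : ((n : ℚ) : ℝ) = (q : ℝ) := by rw [← hn]; simp
    exact_mod_cast this
  exact (AddCircle.coe_eq_zero_iff (1 : ℚ)).mpr ⟨n, by rw [← h3]; simp⟩

theorem finite_characterModule (M : Type) [AddCommGroup M] [Finite M] :
    Finite (CharacterModule M) ∧ Nat.card (CharacterModule M) ≤ Nat.card M := by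
  classical
  have := Fintype.ofFinite M
  let f : CharacterModule M → AddChar M ℂ := fun c => charToCircle.compAddMonoidHom c
  have hf : Function.Injective f := by
    intro c c' h
    refine charExt fun x => ?_
    exact charToCircle_injective (DFunLike.congr_fun h x)
  have h1 : Finite (AddChar M ℂ) := inferInstance
  refine ⟨Finite.of_injective f hf, ?_⟩
  refine (Nat.card_le_card_of_injective f hf).trans ?_
  rw [Nat.card_eq_fintype_card, Nat.card_eq_fintype_card]
  exact AddChar.card_addChar_le M ℂ

variable {R : Type} [CommRing R]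

/-- Evaluation. -/
def charEval (R : Type) [CommRing R] (M : Type) [AddCommGroup M] [Module R M] :
    M →ₗ[R] CharacterModule (CharacterModule M) where
  toFun x :=
    { toFun := fun c => c x
      map_zero' := rfl
      map_add' := fun _ _ => rfl }
  map_add' x y := charExt fun c => map_add c x y
  map_smul' _ _ := charExt fun _ => rfl

@[simp] theorem charEval_apply {M : Type} [AddCommGroup M] [Module R M] (x : M)
    (c : CharacterModule M) : charEval R M x c = c x := rfl

theorem charEval_bijective (M : Type) [AddCommGroup M] [Module R M] [Finite M] :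
    Function.Bijective (charEval R M) := by
  have hinj : Function.Injective (charEval R M) := by
    rw [injective_iff_map_eq_zero]
    intro x hx
    refine CharacterModule.eq_zero_of_character_apply fun c => ?_
    rw [← charEval_apply (R := R), hx]
    rfl
  have h1 := (finite_characterModule M).1
  have h2 := finite_characterModule (CharacterModule M)
  have h3 := h2.1
  exact (Nat.bijective_iff_injective_and_card (charEval R M)).mpr ⟨hinj,
    le_antisymm (Nat.card_le_card_of_injective _ hinj)
      (h2.2.trans (finite_characterModule M).2)⟩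

/-- The number of `p`-torsion characters. -/
theorem card_torsion_characterModule (M : Type) [AddCommGroup M] [Finite M] (p : ℕ) :
    Nat.card {c : CharacterModule M // p • c = 0} ≤ Nat.card {x : M // p • x = 0} := by
  let f : M →+ M := nsmulAddMonoidHom p
  have h1 : Nat.card {x : M // p • x = 0} = Nat.card (M ⧸ f.range) := by
    rw [card_quotient_eq_card_ker]
    exact Nat.card_congr (Equiv.subtypeEquivRight fun y => Iff.rfl)
  rw [h1]
  have h2 := finite_characterModule (M ⧸ f.range)
  refine le_trans ?_ h2.2
  have h3 := h2.1
  refine Nat.card_le_card_of_injective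
    (fun c => (QuotientAddGroup.lift f.range (c.1 : M →+ AddCircle (1 : ℚ)) (by
      rintro _ ⟨x, rfl⟩
      show c.1 (p • x) = 0
      rw [map_nsmul]
      exact DFunLike.congr_fun c.2 x) : CharacterModule (M ⧸ f.range))) ?_
  intro c c' h
  refine Subtype.ext (charExt fun x => ?_)
  exact DFunLike.congr_fun h (QuotientAddGroup.mk x)

/-- The annihilator of the character module. -/
theorem annihilator_characterModule (M : Type) [AddCommGroup M] [Module R M] :
    Module.annihilator R (CharacterModule M) = Module.annihilator R M := by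
  ext a
  rw [Module.mem_annihilator, Module.mem_annihilator]
  constructor
  · intro h x
    refine CharacterModule.eq_zero_of_character_apply fun c => ?_
    exact DFunLike.congr_fun (h c) x
  · intro h c
    refine charExt fun x => ?_
    rw [CharacterModule.smul_apply, h, map_zero]
    rfl

/-! ## Coinduced modules -/

variable {T : Type} [CommRing T] [Algebra R T] {M : Type} [AddCommGroup M] [Module R M]

/-- The coinduced module `Hom_R(T, M)`. -/
def Coind (R T M : Type) [CommRing R] [CommRing T] [Algebra R T] [AddCommGroup M] [Module R M] :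
    Type := T →ₗ[R] M

instance : AddCommGroup (Coind R T M) := inferInstanceAs (AddCommGroup (T →ₗ[R] M))

instance : FunLike (Coind R T M) T M := inferInstanceAs (FunLike (T →ₗ[R] M) T M)

/-- The underlying linear map. -/
def Coind.toLin (f : Coind R T M) : T →ₗ[R] M := f

theorem Coind.toLin_apply (f : Coind R T M) (x : T) : f.toLin x = f x := rfl

theorem Coind.ext' {f g : Coind R T M} (h : ∀ x, f x = g x) : f = g := LinearMap.ext h

instance : Module T (Coind R T M) where
  smul t f := (LinearMap.comp (f : T →ₗ[R] M) (LinearMap.mulLeft R t) : T →ₗ[R] M)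
  one_smul f := Coind.ext' fun x => congrArg f (one_mul x)
  mul_smul s t f := Coind.ext' fun x => congrArg f (by
    show (s * t) * x = t * (s * x)
    ring)
  smul_zero t := Coind.ext' fun x => rfl
  smul_add t f g := Coind.ext' fun x => rfl
  add_smul s t f := Coind.ext' fun x => by
    show f ((s + t) * x) = f (s * x) + f (t * x)
    rw [add_mul]
    exact map_add f.toLin _ _
  zero_smul f := Coind.ext' fun x => by
    show f (0 * x) = 0
    rw [zero_mul]
    exact map_zero f.toLin

@[simp] theorem Coind.smul_apply (t : T) (f : Coind R T M) (x : T) : (t • f) x = f (t * x) := rfl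

@[simp] theorem Coind.add_apply (f g : Coind R T M) (x : T) : (f + g) x = f x + g x := rfl

@[simp] theorem Coind.zero_apply (x : T) : (0 : Coind R T M) x = 0 := rfl

theorem Coind.map_add' (f : Coind R T M) (x y : T) : f (x + y) = f x + f y :=
  map_add f.toLin x y

theorem Coind.map_smul' (f : Coind R T M) (a : R) (x : T) : f (a • x) = a • f x :=
  map_smul f.toLin a x

theorem Coind.map_algebraMap_mul (f : Coind R T M) (a : R) (x : T) :
    f (algebraMap R T a * x) = a • f x := by
  rw [← Algebra.smul_def, Coind.map_smul']

theorem finite_coind (n : ℕ) (hn : ∀ x : M, n • x = 0) [Finite (T ⧸ Ideal.span {(n : T)})]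
    [Finite M] : Finite (Coind R T M) := by
  refine Finite.of_injective (fun (f : Coind R T M) (q : T ⧸ Ideal.span {(n : T)}) =>
    f (Quotient.out q)) ?_
  intro f g h
  refine Coind.ext' fun x => ?_
  have key : ∀ k : Coind R T M, k x =
      k (Quotient.out (Ideal.Quotient.mk (Ideal.span {(n : T)}) x)) := by
    intro k
    set s := (Quotient.out (Ideal.Quotient.mk (Ideal.span {(n : T)}) x) : T) with hs
    have h1 : Ideal.Quotient.mk (Ideal.span {(n : T)}) x = Ideal.Quotient.mk _ s :=
      (Quotient.out_eq _).symm
    rw [Ideal.Quotient.eq, Ideal.mem_span_singleton] at h1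
    obtain ⟨u, hu⟩ := h1
    rw [sub_eq_iff_eq_add.mp hu, Coind.map_add', ← nsmul_eq_mul,
      ← Coind.toLin_apply, map_nsmul k.toLin, hn, zero_add]
  rw [key f, key g]
  exact congrFun h _

/-- The action on the coinduced module. -/
def coindRep (T : Type) [CommRing T] [Algebra R T] (act : GQ →* Module.End R M) :
    GQ →* Module.End T (Coind R T M) where
  toFun g :=
    { toFun := fun f => (LinearMap.comp (act g) (f : T →ₗ[R] M) : T →ₗ[R] M)
      map_add' := fun f f' => Coind.ext' fun x => map_add (act g) _ _
      map_smul' := fun t f => Coind.ext' fun x => rfl }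
  map_one' := LinearMap.ext fun f => Coind.ext' fun x => by
    show act 1 (f x) = f x
    rw [map_one]; rfl
  map_mul' g h := LinearMap.ext fun f => Coind.ext' fun x => by
    show act (g * h) (f x) = act g (act h (f x))
    rw [map_mul]; rfl

@[simp] theorem coindRep_apply (act : GQ →* Module.End R M) (g : GQ) (f : Coind R T M) (x : T) :
    coindRep T act g f x = act g (f x) := rfl

theorem coindRep_openTrivial {act : GQ →* Module.End R M} (h : OpenTrivial act) :
    OpenTrivial (coindRep T act) := by
  obtain ⟨L, hL, h⟩ := h
  refine ⟨L, hL, fun σ hσ => LinearMap.ext fun f => Coind.ext' fun x => ?_⟩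
  rw [coindRep_apply, h σ hσ]
  rfl

/-- The relation at Frobenius elements passes to the coinduced module. -/
theorem coindRep_frobRel [IsLocalRing T] (ρ : GaloisRepAdic T) (S : Finset ℕ)
    {act : GQ →* Module.End R M}
    (h : ∀ ℓ : ℕ, ℓ.Prime → ℓ ∉ S → ∀ A : ValuationSubring (AlgebraicClosure ℚ),
      A.LiesOverPrime ℓ → ∀ σ : GQ, A.IsFrobeniusAt σ ℓ →
        ∃ t d : R, algebraMap R T t = LinearMap.trace T ρ.V (ρ.ρ σ) ∧
          algebraMap R T d = LinearMap.det (ρ.ρ σ) ∧ act σ + d • act σ⁻¹ = t • 1) :
    FrobRel ρ S (coindRep T act) := by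
  intro ℓ hℓ hℓS A hA σ hσ
  obtain ⟨t, d, ht, hd, hrel⟩ := h ℓ hℓ hℓS A hA σ hσ
  rw [← ht, ← hd]
  refine LinearMap.ext fun f => Coind.ext' fun x => ?_
  show act σ (f x) + act σ⁻¹ (f (algebraMap R T d * x)) = f (algebraMap R T t * x)
  rw [Coind.map_algebraMap_mul, Coind.map_algebraMap_mul, map_smul]
  exact LinearMap.congr_fun hrel (f x)

/-- If `α` kills `Hom_R(T, M)` then it kills `T ⊗ M^∨`. -/
theorem smul_tensor_eq_zero [Finite M] {α : T} (hα : ∀ f : Coind R T M, α • f = 0)
    (z : T ⊗[R] CharacterModule M) : α • z = 0 := by
  refine CharacterModule.eq_zero_of_character_apply fun c => ?_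
  let e : M ≃ₗ[R] CharacterModule (CharacterModule M) :=
    LinearEquiv.ofBijective (charEval R M) (charEval_bijective M)
  let g : T →ₗ[R] CharacterModule (CharacterModule M) :=
    { toFun := fun t =>
        { toFun := fun y => c (t ⊗ₜ y)
          map_zero' := by rw [TensorProduct.tmul_zero, map_zero]
          map_add' := fun y y' => by rw [TensorProduct.tmul_add, map_add] }
      map_add' := fun t t' => charExt fun y => by
        show c ((t + t') ⊗ₜ y) = c (t ⊗ₜ y) + c (t' ⊗ₜ y)
        rw [TensorProduct.add_tmul, map_add]
      map_smul' := fun a t => charExt fun y => by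
        show c ((a • t) ⊗ₜ y) = c (t ⊗ₜ (a • y))
        rw [TensorProduct.smul_tmul] }
  let f : Coind R T M := (e.symm.toLinearMap ∘ₗ g : T →ₗ[R] M)
  have hf : ∀ t, g (α * t) = 0 := by
    intro t
    have h1 : f (α * t) = 0 := DFunLike.congr_fun (hα f) t
    have h2 : e.symm (g (α * t)) = 0 := h1
    rwa [LinearEquiv.map_eq_zero_iff] at h2
  induction z using TensorProduct.induction_on with
  | zero => rw [smul_zero, map_zero]
  | tmul t y =>
    rw [TensorProduct.smul_tmul']
    exact DFunLike.congr_fun (hf t) y
  | add x y hx hy => rw [smul_add, map_add, hx, hy, add_zero]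

/-- **Fitting bound** for coinduced modules. -/
theorem pow_mem_map_annihilator_of_coind [Finite M] (p m c : ℕ) (hM : ∀ x : M, p ^ m • x = 0)
    (hc : Nat.card {y : M // p • y = 0} ≤ c) {α : T} (hα : ∀ f : Coind R T M, α • f = 0) :
    α ^ c ∈ (Module.annihilator R M).map (algebraMap R T) := by
  have h1 := (finite_characterModule M).1
  have hkill : ∀ y : CharacterModule M, p ^ m • y = 0 := by
    intro y
    refine charExt fun x => ?_
    show p ^ m • y x = 0
    rw [← map_nsmul, hM, map_zero]
  obtain ⟨y, hy⟩ := exists_generators p m c hkill ((card_torsion_characterModule M p).trans hc)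
  rw [← annihilator_characterModule]
  refine pow_mem_map_annihilator y ?_ α (smul_tensor_eq_zero hα)
  rw [eq_top_iff]
  intro x _
  have hx : x ∈ AddSubgroup.closure (Set.range y) := by rw [hy]; trivial
  have hle : AddSubgroup.closure (Set.range y) ≤
      (Submodule.span R (Set.range y)).toAddSubgroup := by
    rw [AddSubgroup.closure_le]
    exact Submodule.subset_span
  exact hle hx

end

end Fermat.FlatMatch
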