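import Fermat.Agent.FrobCompare
import Fermat.Agent.FrobeniusDensity
import Fermat.Agent.FlatMatch.BLR
import Fermat.Agent.FlatMatch.Chevalley
import Fermat.Agent.FlatModel.Base

set_option autoImplicit false

/-!
# From Frobenius relations to relations for all elements of the Galois group
-/

namespace Fermat.FlatMatch

open IsLocalRing Fermat.Agent Fermat.Agent.FrobCompare Fermat.FlatModel

/-- powers of an element `u` with `u + d u⁻¹ = t`. -/
theorem powTrace_rel {T E : Type*} [CommRing T] [Ring E] [Algebra T E] (u v : E) (t d : T)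
    (huv : u * v = algebraMap T E d) (hvu : v * u = algebraMap T E d)
    (h : u + v = algebraMap T E t) (k : ℕ) :
    u ^ k + v ^ k = algebraMap T E (powTrace t d k) := by
  induction k using Nat.twoStepInduction with
  | zero => rw [pow_zero, pow_zero, powTrace, map_ofNat]; norm_num
  | one => rw [pow_one, pow_one, powTrace, h]
  | more n ih1 ih2 =>
    rw [powTrace, map_sub, map_mul, map_mul, ← ih1, ← ih2, ← h, ← huv]
    have h1 : u * v * (u ^ n + v ^ n) = u * u ^ n * v + v * v ^ n * u := by
      rw [mul_add]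
      congr 1
      · have : Commute v (u ^ n) := by
          have : Commute v u := by rw [Commute, SemiconjBy, hvu, huv]
          exact this.pow_right n
        rw [mul_assoc, this.eq, mul_assoc]
      · rw [huv, ← hvu]
        have : Commute u (v ^ n) := by
          have : Commute u v := by rw [Commute, SemiconjBy, hvu, huv]
          exact this.pow_right n
        rw [mul_assoc, this.eq, mul_assoc]
    have hc : Commute u v := by rw [Commute, SemiconjBy, hvu, huv]
    rw [h1]
    have h2 : u * u ^ n * v = v * u ^ (n + 1) := by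
      rw [← pow_succ', (hc.pow_left (n + 1)).eq]
    have h3 : v * v ^ n * u = u * v ^ (n + 1) := by
      rw [← pow_succ', (hc.symm.pow_left (n + 1)).eq]
    rw [h2, h3, pow_succ' u (n + 1), pow_succ' v (n + 1)]
    simp only [add_mul, mul_add]
    abel

/-- The quotient by the annihilator of a finite module is finite. -/
theorem finite_quotient_annihilator (T X : Type*) [CommRing T] [AddCommGroup X] [Module T X]
    [Finite X] : Finite (T ⧸ Module.annihilator T X) := by
  classical
  let f : T ⧸ Module.annihilator T X → (X → X) :=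
    Quotient.lift (fun (a : T) (x : X) => a • x) (by
      intro a b hab
      have h : a - b ∈ Module.annihilator T X :=
        (Submodule.quotientRel_def _).mp hab
      funext x
      have h2 := Module.mem_annihilator.mp h x
      rw [sub_smul, sub_eq_zero] at h2
      exact h2)
  refine Finite.of_injective f ?_
  rintro ⟨a⟩ ⟨b⟩ hab
  refine (Submodule.Quotient.eq _).mpr ?_
  rw [Module.mem_annihilator]
  intro x
  rw [sub_smul, sub_eq_zero]
  exact congr_fun hab x

variable {T : Type} [CommRing T] [IsLocalRing T]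

/-- The Cayley–Hamilton relation for every element of the Galois group on a finite smooth module,
deduced from the relation for Frobenius elements. -/
theorem rel_of_frobenius (ρ : GaloisRepAdic T) {X : Type} [AddCommGroup X] [Module T X] [Finite X]
    (ξ : GQ →* Module.End T X)
    (hsm : ∃ L : IntermediateField ℚ (AlgebraicClosure ℚ), FiniteDimensional ℚ L ∧
      ∀ σ : GQ, (∀ x ∈ L, σ x = x) → ξ σ = 1)
    (S : Finset ℕ)
    (hfrob : ∀ ℓ : ℕ, ℓ.Prime → ℓ ∉ S → ∀ A : ValuationSubring (AlgebraicClosure ℚ),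
      A.LiesOverPrime ℓ → ∀ σ : GQ, A.IsFrobeniusAt σ ℓ →
        ξ σ + LinearMap.det (ρ.ρ σ) • ξ σ⁻¹ = LinearMap.trace T ρ.V (ρ.ρ σ) • 1) (g : GQ) :
    ξ g + LinearMap.det (ρ.ρ g) • ξ g⁻¹ = LinearMap.trace T ρ.V (ρ.ρ g) • 1 := by
  -- an ideal killing `X`
  have hfinq : Finite (T ⧸ Module.annihilator T X) := finite_quotient_annihilator T X
  obtain ⟨n, hn⟩ := exists_maximalIdeal_pow_le (Module.annihilator T X)
  obtain ⟨L₁, hL₁, h₁⟩ := hsm
  obtain ⟨L₂, hL₂, h₂⟩ := ρ.isAdicContinuous n
  have : FiniteDimensional ℚ (L₁ ⊔ L₂ : IntermediateField ℚ (AlgebraicClosure ℚ)) :=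
    IntermediateField.finiteDimensional_sup L₁ L₂
  obtain ⟨ℓ, hℓ, hℓS, A, σ, hA, hσ, ⟨k, hk⟩, -⟩ := FrobDensity.frobenius_density (L₁ ⊔ L₂) S g
  -- compare `g` with `σ ^ k`
  set u := (σ ^ k)⁻¹ * g with hu
  have hufix : ∀ x ∈ (L₁ ⊔ L₂ : IntermediateField ℚ (AlgebraicClosure ℚ)), u x = x := by
    intro x hx
    rw [hu, AlgEquiv.mul_apply, hk x hx]
    show ((σ ^ k)⁻¹ * (σ ^ k)) x = x
    rw [inv_mul_cancel]
    rfl
  have hg : g = σ ^ k * u := by rw [hu, mul_inv_cancel_left]
  have hξu : ξ u = 1 := h₁ u fun x hx => hufix x (le_sup_left (a := L₁) hx)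
  have hξg : ξ g = ξ σ ^ k := by rw [hg, map_mul, hξu, mul_one, map_pow]
  have hξg' : ξ g⁻¹ = ξ σ⁻¹ ^ k := by
    rw [hg, mul_inv_rev, map_mul, ← inv_pow, map_pow]
    have : ξ u⁻¹ = 1 := by
      have := map_mul ξ u⁻¹ u
      rw [inv_mul_cancel, map_one, hξu, mul_one] at this
      exact this.symm
    rw [this, one_mul]
  have hker : maximalIdeal T ^ n ≤ RingHom.ker (algebraMap T (Module.End T X)) := by
    intro a ha
    rw [RingHom.mem_ker]
    refine LinearMap.ext fun x => ?_
    exact Module.mem_annihilator.mp (hn ha) x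
  have hsub : ∀ v : ρ.V, ρ.ρ g v - (ρ.ρ σ ^ k) v ∈ (maximalIdeal T ^ n) • (⊤ : Submodule T ρ.V) := by
    intro v
    have h3 := h₂ u (fun x hx => hufix x (le_sup_right (a := L₁) hx)) v
    rw [hg, map_mul, map_pow, Module.End.mul_apply, ← map_sub]
    have h4 := Submodule.mem_map_of_mem (f := ρ.ρ σ ^ k) h3
    rw [Submodule.map_smul''] at h4
    exact Submodule.smul_mono le_rfl le_top h4
  -- pass to the quotient by the power of the maximal ideal
  have hmk : maximalIdeal T ^ n ≤ RingHom.ker (Ideal.Quotient.mk (maximalIdeal T ^ n)) := by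
    rw [Ideal.mk_ker]
  have hnt : Nontrivial ρ.V := Module.nontrivial_of_finrank_pos (R := T)
    (by rw [ρ.finrank_eq]; norm_num)
  have hcp := charpoly_map_eq_of_sub_mem (Ideal.Quotient.mk (maximalIdeal T ^ n)) _ hmk
    (ρ.ρ g) (ρ.ρ σ ^ k) hsub
  have htr := BN2.trace_eq_of_charpoly_map_eq ρ.finrank_eq ρ.finrank_eq _ _ _ _ hcp
  have hdet := BN2.det_eq_of_charpoly_map_eq ρ.finrank_eq ρ.finrank_eq _ _ _ _ hcp
  have htransfer : ∀ a b : T, Ideal.Quotient.mk (maximalIdeal T ^ n) a =
      Ideal.Quotient.mk (maximalIdeal T ^ n) b → ∀ f : Module.End T X, a • f = b • f := by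
    intro a b hab f
    have h5 : a - b ∈ maximalIdeal T ^ n := Ideal.Quotient.eq.mp hab
    refine LinearMap.ext fun x => ?_
    have h6 := Module.mem_annihilator.mp (hn h5) (f x)
    rw [sub_smul, sub_eq_zero] at h6
    exact h6
  rw [htransfer _ _ htr, htransfer _ _ hdet, hξg, hξg', trace_pow_eq ρ.finrank_eq, map_pow]
  have hrel := hfrob ℓ hℓ hℓS A hA σ hσ
  set d := LinearMap.det (ρ.ρ σ) with hd
  set t := LinearMap.trace T ρ.V (ρ.ρ σ) with ht
  have huv : ξ σ * (d • ξ σ⁻¹) = algebraMap T (Module.End T X) d := by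
    rw [mul_smul_comm, ← map_mul, mul_inv_cancel, map_one, Algebra.algebraMap_eq_smul_one]
  have hvu : (d • ξ σ⁻¹) * ξ σ = algebraMap T (Module.End T X) d := by
    rw [smul_mul_assoc, ← map_mul, inv_mul_cancel, map_one, Algebra.algebraMap_eq_smul_one]
  have h7 := powTrace_rel (ξ σ) (d • ξ σ⁻¹) t d huv hvu (by
    rw [hrel, Algebra.algebraMap_eq_smul_one]) k
  rw [smul_pow, Algebra.algebraMap_eq_smul_one] at h7
  exact h7

end Fermat.FlatMatch
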